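import Fermat.Agent.Ribet.H52.ElocCore
import Fermat.Agent.S13.H64.FreyP
import Fermat.Agent.Ribet.H187.ELocMain
import Fermat.Agent.Ribet.H944.WallSpec5

/-!
# Row RIBET, wall at `p`, piece ELOC-Frey: the local structure of the Frey `E[p]` at `p`
(helper52)

* `frey_elocOrdAt_h52` : for a Frey package `P` and a valuation subring `A` of `ℚ̄` over `p`, if
  the inertia group at `A` acts ordinarily on `E[p]` (`OrdinaryInertiaAt`, which the wall glue
  supplies from (S1) + (S2)), then `ELOCOrdAt P.freyCurve P.p A`: the line `⟨t⟩ = E[p] ∩ E₁` with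
  inertia acting by `χ`, trivial action on the quotient, and `E[p]` peu ramifiée.
  Valid in all cases (`p ∣ abc` or not).
* `wallFrey_of_filtration5_h52`, `S44_of_filtration5_h52` : the glue of `H944/WallSpec5.lean`
  WITHOUT the hypothesis `ELOCOrdFreyStatement`.

Inputs: the same-reduction analysis of the Frey curve at `p` (`S13.H64.frey_inKer_smul_sub`), the
node analysis `S05.Comp.c3c`, `det = χ` (`H403.frey_det_eq_of_apply_root`), the supersingular
dichotomy (`H187.exists_ordinary_point_of_eigen`), and `elocOrdAt_core_h52`.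
-/

set_option autoImplicit false
set_option linter.unusedSectionVars false
set_option linter.unusedVariables false
set_option linter.style.haveILetI false

open WeierstrassCurve WeierstrassCurve.Affine WeierstrassCurve.Affine.Point

namespace Fermat.Agent.Ribet.H52

open Fermat.Agent.S05 Fermat.Agent.S05.SameRed Fermat.Agent.S05.Assemble
open Fermat.Agent.S13.H64 (val_eta_eq_one_of_integral_torsion nodeTorsion_of_c3c
  frey_inKer_smul_sub_torsion)
open Fermat.Agent.Ribet.H944.Wall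
open Fermat.Agent.Ribet.Spec

section abstract

variable {K : Type*} [Field K] [DecidableEq K]
  {Γ₀ : Type*} [LinearOrderedCommGroupWithZero Γ₀]
variable {W : Affine K} {v : Valuation K Γ₀}

/-- Good case: `η` is a unit at an integral odd torsion point. -/
theorem val_eta_of_good_h52 (hW : IntegralCoeffs W v) (h2 : v (2 : K) = 1)
    {n : ℕ} (hn : Odd n)
    {r₁ r₂ r₃ : K} (hr : Roots W r₁ r₂ r₃) (hr₁ : v r₁ ≤ 1) (hr₂ : v r₂ ≤ 1) (hr₃ : v r₃ ≤ 1)
    (h12 : v (r₁ - r₂) = 1) (h13 : v (r₁ - r₃) = 1) (h23 : v (r₂ - r₃) = 1)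
    {x y : K} (h : W.Nonsingular x y)
    (hP : n • Point.some x y h = 0) (hx : v x ≤ 1) :
    v (2 * y + W.a₁ * x + W.a₃) = 1 := by
  have h4 := val_four (v := v) h2
  have h21 : v (r₂ - r₁) = 1 := by rw [← Valuation.map_neg, neg_sub]; exact h12
  have h31 : v (r₃ - r₁) = 1 := by rw [← Valuation.map_neg, neg_sub]; exact h13
  have h32 : v (r₃ - r₂) = 1 := by rw [← Valuation.map_neg, neg_sub]; exact h23
  apply val_eta_eq_one_of_integral_torsion hW h2 hn h hP hx
  intro hη
  have hsq := val_eta_sq_lt_one hη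
  rw [hr.eta_sq h.1, map_mul, h4, one_mul] at hsq
  rcases exists_lt_one_of_mul (val_sub_le_one hx hr₁) (val_sub_le_one hx hr₂)
    (val_sub_le_one hx hr₃) hsq with h1 | h1 | h1
  · exact hr.val_WX_eq_one hW h2 hx hr₁ hr₂ hr₃ hη h1 h12 h13
  · exact hr.swap₁₂.val_WX_eq_one hW h2 hx hr₂ hr₁ hr₃ hη h1 h21 h23
  · exact hr.swap₁₃.val_WX_eq_one hW h2 hx hr₃ hr₂ hr₁ hη h1 h32 h31

/-- Node case: `v η` is a power of `v π` at an integral odd torsion point. -/
theorem val_eta_of_node_h52 (hW : IntegralCoeffs W v) (h2 : v (2 : K) = 1)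
    {n : ℕ} (hn : Odd n)
    {e₁ α β : K} (hr : Roots W e₁ (e₁ + α) (e₁ + β)) (he₁ : v e₁ ≤ 1) (hα : v α < 1)
    (hβ : v β = 1) {π : K} (hπ : v π ^ n = v α ^ 2)
    (hC3 : NodeTorsion W v e₁ α n)
    {x y : K} (h : W.Nonsingular x y)
    (hP : n • Point.some x y h = 0) (hx : v x ≤ 1) :
    ∃ j : ℕ, v (2 * y + W.a₁ * x + W.a₃) = v (π ^ j) := by
  have h4 := val_four (v := v) h2
  have hn0 : n ≠ 0 := hn.pos.ne'
  have hxe : v (x - e₁) ≤ 1 := val_sub_le_one hx he₁
  have hr₂ : v (e₁ + α) ≤ 1 := val_add_le_one he₁ hα.le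
  have hr₃ : v (e₁ + β) ≤ 1 := val_add_le_one he₁ hβ.le
  have hβα : v (β - α) = 1 := by
    rw [val_sub_eq_of_lt (by rw [hβ]; exact hα), hβ]
  rcases hxe.lt_or_eq with hlt | heq
  · -- off `E₀`
    obtain ⟨hαx, j, hj⟩ := hC3 x y h hP hlt
    have hvc : v (π ^ j) = v (x - e₁) := by
      apply pow_eq_pow_imp_eq hn0
      rw [hj, map_pow, ← pow_mul, mul_comm, pow_mul, hπ, ← pow_mul]
    have hxα : v (x - (e₁ + α)) = v (x - e₁) := by
      have : x - (e₁ + α) = (x - e₁) - α := by ring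
      rw [this, val_sub_eq_of_lt hαx]
    have hxβ : v (x - (e₁ + β)) = 1 := by
      have : x - (e₁ + β) = (x - e₁) - β := by ring
      rw [this, val_sub_eq_of_lt' (by rw [hβ]; exact hlt), hβ]
    refine ⟨j, ?_⟩
    apply pow_eq_pow_imp_eq (n := 2) (by norm_num)
    rw [← map_pow, hr.eta_sq h.1, map_mul, map_mul, map_mul, h4, hxα, hxβ, hvc]
    simp [pow_two]
  · -- on `E₀`
    refine ⟨0, ?_⟩
    rw [pow_zero, map_one]
    apply val_eta_eq_one_of_integral_torsion hW h2 hn h hP hx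
    intro hη
    have hsq := val_eta_sq_lt_one hη
    rw [hr.eta_sq h.1, map_mul, h4, one_mul] at hsq
    have hxα : v (x - (e₁ + α)) = 1 := by
      have : x - (e₁ + α) = (x - e₁) - α := by ring
      rw [this, val_sub_eq_of_lt (by rw [heq]; exact hα), heq]
    have h3 : v (x - (e₁ + β)) < 1 := by
      rw [map_mul, map_mul, heq, hxα, one_mul, one_mul] at hsq
      exact hsq
    have h31 : v (e₁ + β - e₁) = 1 := by
      have : e₁ + β - e₁ = β := by ring
      rw [this, hβ]
    have h32 : v (e₁ + β - (e₁ + α)) = 1 := by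
      have : e₁ + β - (e₁ + α) = β - α := by ring
      rw [this, hβα]
    exact hr.swap₁₃.val_WX_eq_one hW h2 hx hr₃ hr₂ he₁ hη h3 h32 h31

end abstract

section frey

/-- At an integral `p`-torsion point of the Frey curve, `η = 2y + a₁x + a₃` has the valuation of a
nonzero integer (at any valuation subring of `ℚ̄` over an odd prime). -/
theorem frey_val_eta_h52 (P : FreyPackage) {q : ℕ} (hq : q.Prime) (hq2 : q ≠ 2)
    (A : ValuationSubring Qb) (hA : A.LiesOverPrime q)
    {x y : Qb} (h : (P.freyCurve⁄Qb).Nonsingular x y)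
    (hP : P.p • Point.some x y h = 0) (hx : A.valuation x ≤ 1) :
    ∃ c : ℤ, c ≠ 0 ∧
      A.valuation (2 * y + (P.freyCurve⁄Qb).a₁ * x + (P.freyCurve⁄Qb).a₃) =
        A.valuation ((c : ℤ) : Qb) := by
  have hW := frey_integral (P := P) hA hq hq2
  have h2 := val_two_eq_one hA hq hq2
  have h4 := val_four_eq_one hA hq hq2
  have hodd : Odd P.p := P.hp_odd
  have hroots := frey_roots P
  have hpow : ∀ (t : ℤ) (j : ℕ), ((t : ℤ) : Qb) ^ j = (((t ^ j : ℤ)) : Qb) := by
    intro t j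
    push_cast
    rfl
  by_cases ha : (q : ℤ) ∣ P.a
  · have hb : ¬ (q : ℤ) ∣ P.b := not_dvd_of_gcd_eq_one hq P.hgcdab ha
    have hr : Roots (P.freyCurve⁄Qb) 0 (0 + fA P / 4) (0 + -(fB P) / 4) := by
      simpa using hroots
    have hα : A.valuation (fA P / 4) < 1 := by
      rw [val_div_four h4]; exact val_fA_lt_one hA ha
    have hβ : A.valuation (-(fB P) / 4) = 1 := by
      rw [val_neg_div_four h4]; exact val_fB_eq_one hA hq hb
    have hα0 : fA P / 4 ≠ 0 := div_ne_zero (fA_ne_zero P) four_ne_zero_Qb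
    have hπ : A.valuation (((P.a ^ 2 : ℤ) : Qb)) ^ P.p = A.valuation (fA P / 4) ^ 2 := by
      rw [val_div_four h4]; exact val_sq_pow _ _
    obtain ⟨j, hj⟩ := val_eta_of_node_h52 hW h2 hodd hr
      (by rw [_root_.map_zero]; exact zero_le_one) hα hβ hπ
      (nodeTorsion_of_c3c h2 hr hα0 hα hβ hodd) h hP hx
    exact ⟨(P.a ^ 2) ^ j, pow_ne_zero _ (pow_ne_zero _ P.ha0), by rw [hj, hpow]⟩
  by_cases hb : (q : ℤ) ∣ P.b
  · have hr : Roots (P.freyCurve⁄Qb) 0 (0 + -(fB P) / 4) (0 + fA P / 4) := by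
      have := hroots.swap₁₂.swap₁₃.swap₁₂
      simpa using this
    have hα : A.valuation (-(fB P) / 4) < 1 := by
      rw [val_neg_div_four h4]; exact val_fB_lt_one hA hb
    have hβ : A.valuation (fA P / 4) = 1 := by
      rw [val_div_four h4]; exact val_fA_eq_one hA hq ha
    have hα0 : -(fB P) / 4 ≠ 0 := div_ne_zero (neg_ne_zero.mpr (fB_ne_zero P)) four_ne_zero_Qb
    have hπ : A.valuation (((P.b ^ 2 : ℤ) : Qb)) ^ P.p = A.valuation (-(fB P) / 4) ^ 2 := by
      rw [val_neg_div_four h4]; exact val_sq_pow _ _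
    obtain ⟨j, hj⟩ := val_eta_of_node_h52 hW h2 hodd hr
      (by rw [_root_.map_zero]; exact zero_le_one) hα hβ hπ
      (nodeTorsion_of_c3c h2 hr hα0 hα hβ hodd) h hP hx
    exact ⟨(P.b ^ 2) ^ j, pow_ne_zero _ (pow_ne_zero _ P.hb0), by rw [hj, hpow]⟩
  by_cases hc : (q : ℤ) ∣ P.c
  · have hABC := fA_add_fB P
    have hr : Roots (P.freyCurve⁄Qb) (fA P / 4) (fA P / 4 + -(fC P) / 4)
        (fA P / 4 + -(fA P) / 4) := by
      have e1 : fA P / 4 + -(fC P) / 4 = -(fB P) / 4 := by rw [← hABC]; ring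
      have e2 : fA P / 4 + -(fA P) / 4 = 0 := by ring
      rw [e1, e2]
      exact hroots.swap₁₃.swap₁₂
    have he : A.valuation (fA P / 4) ≤ 1 := by
      rw [val_div_four h4]; exact val_fA_le_one
    have hα : A.valuation (-(fC P) / 4) < 1 := by
      rw [val_neg_div_four h4]; exact val_fC_lt_one hA hc
    have hβ : A.valuation (-(fA P) / 4) = 1 := by
      rw [val_neg_div_four h4]; exact val_fA_eq_one hA hq ha
    have hα0 : -(fC P) / 4 ≠ 0 := div_ne_zero (neg_ne_zero.mpr (fC_ne_zero P)) four_ne_zero_Qb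
    have hπ : A.valuation (((P.c ^ 2 : ℤ) : Qb)) ^ P.p = A.valuation (-(fC P) / 4) ^ 2 := by
      rw [val_neg_div_four h4]; exact val_sq_pow _ _
    obtain ⟨j, hj⟩ := val_eta_of_node_h52 hW h2 hodd hr he hα hβ hπ
      (nodeTorsion_of_c3c h2 hr hα0 hα hβ hodd) h hP hx
    exact ⟨(P.c ^ 2) ^ j, pow_ne_zero _ (pow_ne_zero _ P.hc0), by rw [hj, hpow]⟩
  · have hA1 := val_fA_eq_one hA hq ha
    have hB1 := val_fB_eq_one hA hq hb
    have hC1' := val_fC_eq_one hA hq hc
    have hABC := fA_add_fB P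
    refine ⟨1, one_ne_zero, ?_⟩
    rw [Int.cast_one, map_one]
    refine val_eta_of_good_h52 hW h2 hodd hroots
      (by rw [_root_.map_zero]; exact zero_le_one)
      (by rw [val_div_four h4]; exact val_fA_le_one)
      (by rw [val_neg_div_four h4]; exact val_fB_le_one) ?_ ?_ ?_ h hP hx
    · have : (0 : Qb) - fA P / 4 = -(fA P) / 4 := by ring
      rw [this, val_neg_div_four h4]; exact hA1
    · have : (0 : Qb) - -(fB P) / 4 = fB P / 4 := by ring
      rw [this, val_div_four h4]; exact hB1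
    · have : fA P / 4 - -(fB P) / 4 = fC P / 4 := by rw [← hABC]; ring
      rw [this, val_div_four h4]; exact hC1'

end frey

section ordinary

/-- Under `OrdinaryInertiaAt` some `p`-torsion point is integral at `A` (supersingular dichotomy
of helper187). -/
theorem exists_integral_of_ordinary_h52 (W : WeierstrassCurve ℤ) (hΔ : W.Δ ≠ 0) {p : ℕ}
    (hp : p.Prime) (hp2 : p ≠ 2) (A : ValuationSubring Qb) (hA : A.LiesOverPrime p)
    (hW : IntegralCoeffs ((W.map (Int.castRingHom ℚ))⁄Qb) A.valuation)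
    (hO : OrdinaryInertiaAt (W.map (Int.castRingHom ℚ)) p A) :
    ∃ x : ETorsion (W.map (Int.castRingHom ℚ)) p,
      x ∉ kerTors_h52 (W.map (Int.castRingHom ℚ)) p A hW := by
  classical
  haveI : Fact p.Prime := ⟨hp⟩
  have hΔQ : (W.map (Int.castRingHom ℚ)).Δ ≠ 0 := by
    rw [WeierstrassCurve.map_Δ]
    simpa using hΔ
  have h2 : Module.finrank (ZMod p) (ETorsion (W.map (Int.castRingHom ℚ)) p) = 2 :=
    Fermat.Agent.Ribet.H403.finrank_tors _ hΔQ p
  have hnt : Nontrivial (ETorsion (W.map (Int.castRingHom ℚ)) p) :=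
    Module.nontrivial_of_finrank_pos (R := ZMod p) (by rw [h2]; norm_num)
  obtain ⟨x₁, hx₁⟩ := exists_ne (0 : ETorsion (W.map (Int.castRingHom ℚ)) p)
  have htor : ∀ x : ETorsion (W.map (Int.castRingHom ℚ)) p,
      p • (x : ((W.map (Int.castRingHom ℚ))⁄Qb).Point) = 0 := by
    intro x
    have := (Submodule.mem_torsionBy_iff _ _).mp x.2
    rwa [natCast_zsmul] at this
  have heig : ∀ τ ∈ A.inertiaSubgroupIn ℚ,
      ∃ P : ((W.map (Int.castRingHom ℚ))⁄Qb).Point, P ≠ 0 ∧ p • P = 0 ∧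
        ∃ a : ℤ, τ • P = a • P := by
    intro τ hτ
    set c : ℕ := ((Fermat.Agent.S55.H414.cycloPow p τ : (ZMod p)ˣ) : ZMod p).val with hc
    have hcyc : CycloAt p τ c :=
      fun ζ hζ => Fermat.Agent.Ribet.H403.apply_root_eq_pow_cycloPow p τ ζ hζ
    have h := hO τ hτ c hcyc x₁
    by_cases hy : τ • x₁ - c • x₁ = 0
    · refine ⟨x₁, fun h0 => hx₁ (Subtype.ext h0), htor x₁, c, ?_⟩
      have := congrArg Subtype.val (sub_eq_zero.mp hy)
      rw [natCast_zsmul]
      exact this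
    · refine ⟨((τ • x₁ - c • x₁ : ETorsion (W.map (Int.castRingHom ℚ)) p) :
          ((W.map (Int.castRingHom ℚ))⁄Qb).Point), fun h0 => hy (Subtype.ext h0), htor _, 1, ?_⟩
      rw [one_smul]
      have h3 : τ • (τ • x₁ - c • x₁) = τ • x₁ - c • x₁ := by
        have h4 : τ • (c • x₁) = c • τ • x₁ :=
          map_nsmul (DistribSMul.toAddMonoidHom
            (ETorsion (W.map (Int.castRingHom ℚ)) p) τ) c x₁
        have h5 : τ • τ • x₁ = (c + 1) • τ • x₁ - c • x₁ := eq_sub_of_add_eq h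
        rw [smul_sub, h4, h5, add_smul, one_smul]
        abel
      exact congrArg Subtype.val h3
  obtain ⟨P, hP0, hPp, hPx⟩ :=
    Fermat.Agent.Ribet.H187.exists_ordinary_point_of_eigen hΔ hp hp2 A hA heig
  refine ⟨⟨P, ?_⟩, ?_⟩
  · rw [Submodule.mem_torsionBy_iff, natCast_zsmul]
    exact hPp
  · intro hin
    have hin' : InKer ((W.map (Int.castRingHom ℚ))⁄Qb) A.valuation P := hin
    rcases P with _ | ⟨x, y, h⟩
    · exact hP0 rfl
    · have h1 : (1 : A.ValueGroup) < A.valuation x := hin'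
      have h2' : A.valuation x ≤ 1 := (A.valuation_le_one_iff x).mpr hPx
      exact absurd h1 (not_lt.mpr h2')

end ordinary

section final

/-- **ELOC for the Frey curve, transported form.** -/
theorem elocOrdAt_of_eq_map_h52 (P : FreyPackage) (E : WeierstrassCurve ℚ)
    (hE : P.freyCurve = E) (W : WeierstrassCurve ℤ) (hEW : E = W.map (Int.castRingHom ℚ))
    (hΔ : W.Δ ≠ 0) (A : ValuationSubring Qb) (hA : A.LiesOverPrime P.p)
    (hO : OrdinaryInertiaAt E P.p A) : ELOCOrdAt E P.p A := by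
  have hp2 : P.p ≠ 2 := by have := P.hp5; omega
  have hW : IntegralCoeffs (E⁄Qb) A.valuation := by
    rw [← hE]
    exact frey_integral (P := P) hA P.pp hp2
  have hΔQ : E.Δ ≠ 0 := by
    rw [hEW, WeierstrassCurve.map_Δ]
    simpa using hΔ
  refine elocOrdAt_core_h52 hΔQ P.pp hp2 hA hW ?_ ?_ ?_ ?_
  · intro σ hσ c hc
    subst hE
    exact Fermat.Agent.Ribet.H403.frey_det_eq_of_apply_root P σ c hc
  · intro σ hσ x hx
    subst hE
    exact frey_inKer_smul_sub_torsion P A hA σ hσ x hx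
  · intro x hx
    subst hE
    have hp : P.p • (x : (P.freyCurve⁄Qb).Point) = 0 := by
      have := (Submodule.mem_torsionBy_iff _ _).mp x.2
      rwa [natCast_zsmul] at this
    have hx' : ¬ InKer (P.freyCurve⁄Qb) A.valuation (x : (P.freyCurve⁄Qb).Point) := hx
    rcases hxc : (x : (P.freyCurve⁄Qb).Point) with _ | ⟨x₀, y₀, h₀⟩
    · rw [hxc] at hx'
      exact absurd trivial hx'
    · rw [hxc] at hx' hp
      obtain ⟨c, hc0, hc⟩ := frey_val_eta_h52 P P.pp hp2 A hA h₀ hp (not_lt.mp hx')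
      refine ⟨(c : ℚ), by exact_mod_cast hc0, ?_⟩
      rw [etaC_some_h52, hc]
      congr 1
  · subst hEW
    exact exists_integral_of_ordinary_h52 W hΔ P.pp hp2 A hA hW hO

/-- **ELOC-Frey.**  For a Frey package and a place over `p` with ordinary inertia action, `E[p]`
has the line `⟨t⟩` (inertia acts by `χ`), trivial quotient, and is peu ramifiée. -/
theorem frey_elocOrdAt_h52 (P : FreyPackage) (A : ValuationSubring Qb)
    (hA : A.LiesOverPrime P.p) (hO : OrdinaryInertiaAt P.freyCurve P.p A) :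
    ELOCOrdAt P.freyCurve P.p A :=
  elocOrdAt_of_eq_map_h52 P P.freyCurve rfl P.freyCurveInt
    (Fermat.Agent.Ribet.H403.freyCurve_eq_map_int P)
    (Fermat.Agent.Ribet.H403.freyCurveInt_Δ_ne_zero P) A hA hO

/-- **Total glue, S44 form, `p ≥ 5`, without the ELOC hypothesis.** -/
theorem wallFrey_of_filtration5_h52 (hPl : PlacesStatement) (hF : AtPFiltration5Statement)
    (hNMT : NotMultiplicativeTypeStatement) : WallFreyStatement := by
  intro P M' _ _ hpM' hpabc hirr S a hNE hemb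
  obtain ⟨A, hA, -⟩ := hPl P.p P.pp
  exact lowered_of_filtrationFor (hF P.p M' P.pp P.hp5 hpM') hA
    (fun hO => frey_elocOrdAt_h52 P A hA hO) (hNMT P A hA) hNE hemb

/-- **The frozen S44 from the filtration package (`p ≥ 5`) and the row inputs**, ELOC-Frey
discharged. -/
theorem S44_of_filtration5_h52 (hE : EmbedStatement) (hPl : PlacesStatement)
    (hF : AtPFiltration5Statement) (hNMT : NotMultiplicativeTypeStatement)
    (hNE : NonEisensteinStatement) (hR3 : EigenformOfOccursAwayStatement)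
    (hR3' : AlmostAllToWitnessStatement) : S44Statement :=
  S44_of_wall hE (wallFrey_of_filtration5_h52 hPl hF hNMT) hNE hR3 hR3'

end final

end Fermat.Agent.Ribet.H52
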