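import Mathlib

/-!
# Row RIBET, piece TF (helper52): linear algebra

`trace_eq_of_quadratic_h52`: on a two-dimensional vector space, a nonzero endomorphism `f` with
`f² - a f + ℓ = 0` and `det f = ℓ` has trace `a` (Cayley-Hamilton in rank two).
-/

set_option autoImplicit false

namespace Fermat.Agent.Ribet.H52

/-- Cayley-Hamilton for `2 × 2` matrices, explicit form. -/
theorem matrix_two_cayley_h52 {R : Type*} [CommRing R] (M : Matrix (Fin 2) (Fin 2) R) :
    M * M - M.trace • M + M.det • (1 : Matrix (Fin 2) (Fin 2) R) = 0 := by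
  ext i j
  fin_cases i <;> fin_cases j <;>
    simp [Matrix.mul_apply, Fin.sum_univ_two, Matrix.det_fin_two, Matrix.trace_fin_two] <;> ring

/-- Cayley-Hamilton for endomorphisms of a free module of rank two, explicit form. -/
theorem linearMap_two_cayley_h52 {k V : Type*} [Field k] [AddCommGroup V] [Module k V]
    (hV : Module.finrank k V = 2) (f : V →ₗ[k] V) :
    f * f - LinearMap.trace k V f • f + LinearMap.det f • (1 : V →ₗ[k] V) = 0 := by
  have : Module.Finite k V := Module.finite_of_finrank_pos (by rw [hV]; norm_num)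
  let b : Module.Basis (Fin 2) k V := Module.finBasisOfFinrankEq k V hV
  have hM := matrix_two_cayley_h52 (LinearMap.toMatrix b b f)
  apply (LinearMap.toMatrix b b).injective
  rw [map_zero, map_add, map_sub, map_smul, map_smul, LinearMap.toMatrix_mul,
    LinearMap.toMatrix_one]
  rw [LinearMap.trace_eq_matrix_trace k b f, ← LinearMap.det_toMatrix b f]
  exact hM

/-- On a two-dimensional space, `f ≠ 0`, `f² - a f + ℓ = 0`, `det f = ℓ` imply `tr f = a`. -/
theorem trace_eq_of_quadratic_h52 {k V : Type*} [Field k] [AddCommGroup V] [Module k V]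
    (hV : Module.finrank k V = 2) (f : V →ₗ[k] V) (a ℓ : k)
    (hrel : f * f - a • f + ℓ • (1 : V →ₗ[k] V) = 0) (hdet : LinearMap.det f = ℓ)
    (hf : f ≠ 0) : LinearMap.trace k V f = a := by
  have hCH := linearMap_two_cayley_h52 hV f
  rw [hdet] at hCH
  have hsub : (LinearMap.trace k V f - a) • f = 0 := by
    have := congrArg₂ (· - ·) hrel hCH
    simp only [sub_zero] at this
    rw [sub_smul]
    rw [← this]
    abel
  rcases smul_eq_zero.mp hsub with h | h
  · exact sub_eq_zero.mp h
  · exact absurd h hf

end Fermat.Agent.Ribet.H52
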