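import Fermat.Agent.Ribet.Spec
import Fermat.Agent.Ribet.H52.LinAlg
import Fermat.Agent.Lib.Frob.Statement
import Fermat.Agent.Lib.VC.BaseChange
import Fermat.Agent.S41.H701.FinrankTorsion
import Fermat.Agent.S13.H891.Frey

/-!
# Row RIBET, piece TF (helper52): the trace formula from the Frobenius relation

* `FrobRelAll` : the Frobenius relation `σ² − a_ℓ σ + ℓ = 0` of `Lib/Frob/Statement.lean`
  WITHOUT the restriction `5 ≤ ℓ` (the cases `ℓ = 2, 3` are the deliverable of `Lib/Frob/Small`).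
* `relation_of_model_h52` : a quadratic Galois relation on the points of an integral model `W`
  of a `ℚ`-curve `E` holds on the points of `E` (transport along the change of variables,
  `Lib/VC`).
* `trace_of_rel_det_h52` : `n` prime, `τ` with `τ² − aτ + ℓ = 0` on `W[n]` and
  `det (τ | E[n]) = ℓ`  ⟹  `tr (τ | E[n]) = a`.
  (Cayley–Hamilton in rank two; `dim E[n] = 2` is `S41/H701`.)
* `trace_of_det_h52` : the same from `FrobRelAll`, for a Frobenius `τ` at a good prime `ℓ ≠ n`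
  and `a = a_ℓ(W)`.
* `traceFormula_of_det_h52` : `Spec.TraceFormulaStatement` from `FrobRelAll` and the determinant
  formula for all curves (`DetFrobAllStatement`);
  `traceFormulaFrey_of_h52` : the Frey form `TraceFormulaFreyStatement` from `FrobRelAll` and
  `Spec.DetFrobStatement`.

No Weil pairing is used; the determinant is an explicit hypothesis.
-/

set_option autoImplicit false

open WeierstrassCurve WeierstrassCurve.Affine WeierstrassCurve.Affine.Point

namespace Fermat.Agent.Ribet.H52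

open Fermat.Agent.Lib.Frob (Qb Pts)
open Fermat.Agent.Ribet.Spec (GQ)

/-- The Frobenius relation of `Lib/Frob/Statement.lean` for ALL primes `ℓ` of good reduction. -/
def FrobRelAll : Prop :=
  ∀ (W : WeierstrassCurve ℤ) (ℓ : ℕ), ℓ.Prime → W.IsGoodPrimeFor ℓ →
    ∀ (A : ValuationSubring Qb) (σ : Qb ≃ₐ[ℚ] Qb), A.LiesOverPrime ℓ → A.IsFrobeniusAt σ ℓ →
      ∀ (n : ℕ), 0 < n → ¬ ℓ ∣ n → ∀ P : Pts W, n • P = 0 →
        σ • σ • P - W.apOfModel ℓ • σ • P + (ℓ : ℤ) • P = 0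

/-- `FrobRelAll` restricted to `ℓ ≥ 5` is `Lib.Frob.FrobRelation`. -/
theorem frobRelation_of_frobRelAll_h52 (hF : FrobRelAll) : Fermat.Agent.Lib.Frob.FrobRelation :=
  fun W ℓ hℓ _ hgood A σ hA hσ n hn hℓn P hP => hF W ℓ hℓ hgood A σ hA hσ n hn hℓn P hP

/-- Transport of a quadratic Galois relation along a change of variables over `ℚ`. -/
theorem relation_of_smul_h52 (E : WeierstrassCurve ℚ) (C : VariableChange ℚ) (σ : Qb ≃ₐ[ℚ] Qb)
    (a b : ℤ) (n : ℕ)
    (h : ∀ P : ((C • E)⁄Qb).Point, n • P = 0 → σ • σ • P - a • σ • P + b • P = 0)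
    (Q : (E⁄Qb).Point) (hQ : n • Q = 0) :
    σ • σ • Q - a • σ • Q + b • Q = 0 := by
  obtain ⟨P, rfl⟩ := (Fermat.Agent.Lib.VC.vcPointBC E C Qb).surjective Q
  have hP : n • P = 0 := by
    apply (Fermat.Agent.Lib.VC.vcPointBC E C Qb).injective
    rw [map_nsmul, hQ, _root_.map_zero]
  have := congrArg (Fermat.Agent.Lib.VC.vcPointBC E C Qb) (h P hP)
  rw [_root_.map_zero, map_add, map_sub, map_zsmul, map_zsmul] at this
  simp only [algEquiv_smul_def] at this ⊢
  rw [← Fermat.Agent.Lib.VC.map_vcPointBC, ← Fermat.Agent.Lib.VC.map_vcPointBC] at this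
  exact this

/-- A quadratic Galois relation on the `n`-torsion of an integral model `W` of `E` holds on the
`n`-torsion of `E`. -/
theorem relation_of_model_h52 (E : WeierstrassCurve ℚ) (W : WeierstrassCurve ℤ)
    (hW : W.IsIntegralModelOf E) (σ : Qb ≃ₐ[ℚ] Qb) (a b : ℤ) (n : ℕ)
    (h : ∀ P : Pts W, n • P = 0 → σ • σ • P - a • σ • P + b • P = 0)
    (Q : (E⁄Qb).Point) (hQ : n • Q = 0) :
    σ • σ • Q - a • σ • Q + b • Q = 0 := by
  obtain ⟨C, hC⟩ := hW
  have h1 : ∀ P : ((W.map (Int.castRingHom ℚ))⁄Qb).Point, n • P = 0 →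
      σ • σ • P - a • σ • P + b • P = 0 := h
  rw [← hC] at h1
  exact relation_of_smul_h52 E C σ a b n h1 Q hQ

section Trace

variable (E : WeierstrassCurve ℚ)

/-- The Galois action on `E[n]` is the restriction of the action on points. -/
theorem coe_smul_torsion_h52 (n : ℕ) (σ : Qb ≃ₐ[ℚ] Qb)
    (P : Submodule.torsionBy ℤ (E⁄Qb).Point n) :
    ((σ • P : Submodule.torsionBy ℤ (E⁄Qb).Point n) : (E⁄Qb).Point) = σ • (P : (E⁄Qb).Point) :=
  rfl

variable [E.IsElliptic]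

/-- The base change of an elliptic curve to `ℚ̄` is elliptic. -/
theorem isElliptic_baseChange_h52 : (E⁄Qb).IsElliptic :=
  inferInstanceAs ((E.map (algebraMap ℚ Qb)).IsElliptic)

/-- `dim E[n] = 2` over `𝔽_n`, for `E` over `ℚ`. -/
theorem finrank_torsion_h52 (n : ℕ) [Fact n.Prime] :
    Module.finrank (ZMod n) (Submodule.torsionBy ℤ (E⁄Qb).Point n) = 2 := by
  have := isElliptic_baseChange_h52 E
  exact Fermat.Agent.S41.H701.finrank_torsion_eq_two_h701 (K := Qb) E n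

/-- The Galois action on `E[n]` is by nonzero endomorphisms. -/
theorem galoisRepModuleEnd_ne_zero_h52 (n : ℕ) [Fact n.Prime] (σ : Qb ≃ₐ[ℚ] Qb) :
    galoisRepModuleEnd (S := ℚ) (K := Qb) E n σ ≠ 0 := by
  intro h0
  have hnt : Nontrivial (Submodule.torsionBy ℤ (E⁄Qb).Point n) := by
    apply Module.nontrivial_of_finrank_pos (R := ZMod n)
    rw [finrank_torsion_h52 E n]; norm_num
  obtain ⟨x, hx⟩ := exists_ne (0 : Submodule.torsionBy ℤ (E⁄Qb).Point n)
  apply hx
  have h1 : σ • x = 0 := by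
    have := congrArg (fun f => f x) h0
    simpa using this
  have h2 := congrArg (fun y => σ⁻¹ • y) h1
  simpa using h2

/-- **Trace from a quadratic relation and the determinant.**  `n` prime, `W` an integral model
of `E`, `τ ∈ G_ℚ` with `τ² − a τ + ℓ = 0` on `W[n]`.  If `det (τ | E[n]) = ℓ` then
`tr (τ | E[n]) = a`. -/
theorem trace_of_rel_det_h52 (W : WeierstrassCurve ℤ) (hW : W.IsIntegralModelOf E)
    (n : ℕ) (hn : n.Prime) (a ℓ : ℤ) (τ : GQ)
    (hrel : ∀ P : Pts W, n • P = 0 → τ • τ • P - a • τ • P + ℓ • P = 0)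
    (hdet : LinearMap.det (galoisRepModuleEnd (S := ℚ) (K := Qb) E n τ) = (ℓ : ZMod n)) :
    galoisTrace (S := ℚ) (K := Qb) E n τ = (a : ZMod n) := by
  have : Fact n.Prime := ⟨hn⟩
  rw [galoisTrace_def]
  refine trace_eq_of_quadratic_h52 (finrank_torsion_h52 E n) _ _ (ℓ : ZMod n) ?_ hdet
    (galoisRepModuleEnd_ne_zero_h52 E n τ)
  apply LinearMap.ext
  intro x
  apply Subtype.ext
  have hx : n • (x : (E⁄Qb).Point) = 0 := by
    have := x.2
    rw [Submodule.mem_torsionBy_iff] at this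
    rw [← this]
    exact (natCast_zsmul (x : (E⁄Qb).Point) n).symm
  have key := relation_of_model_h52 E W hW τ a ℓ n hrel (x : (E⁄Qb).Point) hx
  have e1 : (((a : ℤ) : ZMod n) • galoisRepModuleEnd (S := ℚ) (K := Qb) E n τ) x
      = a • (τ • x) := by
    rw [LinearMap.smul_apply, galoisRepModuleEnd_apply, Int.cast_smul_eq_zsmul]
  have e2 : (((ℓ : ZMod n)) • (1 : Module.End (ZMod n)
      (Submodule.torsionBy ℤ (E⁄Qb).Point n))) x = ℓ • x := by
    rw [LinearMap.smul_apply, Module.End.one_apply, Int.cast_smul_eq_zsmul]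
  rw [LinearMap.add_apply, LinearMap.sub_apply, e1, e2, Module.End.mul_apply,
    galoisRepModuleEnd_apply, galoisRepModuleEnd_apply]
  simp only [Submodule.coe_add, Submodule.coe_sub, Submodule.coe_smul_of_tower,
    coe_smul_torsion_h52, ZeroMemClass.coe_zero, LinearMap.zero_apply]
  exact key

/-- **Trace from determinant.**  `n ≠ ℓ` primes, `W` an integral model of `E` good at `ℓ`, `τ` a
Frobenius at a place over `ℓ`.  If `det (τ | E[n]) = ℓ` then `tr (τ | E[n]) = a_ℓ(W)`. -/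
theorem trace_of_det_h52 (hF : FrobRelAll) (W : WeierstrassCurve ℤ)
    (hW : W.IsIntegralModelOf E) (n ℓ : ℕ) (hn : n.Prime) (hℓ : ℓ.Prime) (hℓn : ℓ ≠ n)
    (hgood : W.IsGoodPrimeFor ℓ) (A : ValuationSubring Qb) (hA : A.LiesOverPrime ℓ)
    (τ : GQ) (hτ : A.IsFrobeniusAt τ ℓ)
    (hdet : LinearMap.det (galoisRepModuleEnd (S := ℚ) (K := Qb) E n τ) = (ℓ : ZMod n)) :
    galoisTrace (S := ℚ) (K := Qb) E n τ = ((W.apOfModel ℓ : ℤ) : ZMod n) := by
  have hndvd : ¬ ℓ ∣ n := fun h => hℓn ((Nat.prime_dvd_prime_iff_eq hℓ hn).mp h)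
  refine trace_of_rel_det_h52 E W hW n hn (W.apOfModel ℓ) (ℓ : ℤ) τ
    (fun P hP => hF W ℓ hℓ hgood A τ hA hτ n hn.pos hndvd P hP) ?_
  rw [hdet]
  push_cast
  rfl

/-- The same for `ℓ ≥ 5`, from `Lib.Frob.FrobRelation` (which is proved on main:
`Lib.Frob.frobRelation_of_parts frobRelationFin reductionData`). -/
theorem trace_of_det_of_five_le_h52 (hF : Fermat.Agent.Lib.Frob.FrobRelation)
    (W : WeierstrassCurve ℤ)
    (hW : W.IsIntegralModelOf E) (n ℓ : ℕ) (hn : n.Prime) (hℓ : ℓ.Prime) (h5 : 5 ≤ ℓ)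
    (hℓn : ℓ ≠ n)
    (hgood : W.IsGoodPrimeFor ℓ) (A : ValuationSubring Qb) (hA : A.LiesOverPrime ℓ)
    (τ : GQ) (hτ : A.IsFrobeniusAt τ ℓ)
    (hdet : LinearMap.det (galoisRepModuleEnd (S := ℚ) (K := Qb) E n τ) = (ℓ : ZMod n)) :
    galoisTrace (S := ℚ) (K := Qb) E n τ = ((W.apOfModel ℓ : ℤ) : ZMod n) := by
  have hndvd : ¬ ℓ ∣ n := fun h => hℓn ((Nat.prime_dvd_prime_iff_eq hℓ hn).mp h)
  refine trace_of_rel_det_h52 E W hW n hn (W.apOfModel ℓ) (ℓ : ℤ) τ
    (fun P hP => hF W ℓ hℓ h5 hgood A τ hA hτ n hn.pos hndvd P hP) ?_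
  rw [hdet]
  push_cast
  rfl

end Trace

/-- The determinant formula at Frobenius elements, for all elliptic curves over `ℚ`
(consequence of the Weil pairing; NOT proved here). -/
def DetFrobAllStatement : Prop :=
  ∀ (E : WeierstrassCurve ℚ) [E.IsElliptic] (n ℓ : ℕ), n.Prime → ℓ.Prime → ℓ ≠ n →
    ∀ A : ValuationSubring Qb, A.LiesOverPrime ℓ → ∀ τ : GQ, A.IsFrobeniusAt τ ℓ →
      LinearMap.det (galoisRepModuleEnd (S := ℚ) (K := Qb) E n τ) = (ℓ : ZMod n)

/-- `Spec.TraceFormulaStatement` from the Frobenius relation at all primes and the determinant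
formula. -/
theorem traceFormula_of_det_h52 (hF : FrobRelAll) (hD : DetFrobAllStatement) :
    Fermat.Agent.Ribet.Spec.TraceFormulaStatement := by
  intro E _ W hW n ℓ hn hℓ hℓn hgood A hA τ hτ
  exact trace_of_det_h52 E hF W hW n ℓ hn hℓ hℓn hgood A hA τ hτ (hD E n ℓ hn hℓ hℓn A hA τ hτ)

/-- (TF-Frey) the trace formula for the Frey curve: for every integral model `W` of the Frey
curve, every prime `ℓ ≠ p` of good reduction of `W` and every Frobenius `τ` at a place over `ℓ`,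
`tr (τ | E[p]) = a_ℓ(W)`. -/
def TraceFormulaFreyStatement : Prop :=
  ∀ (P : FreyPackage) (W : WeierstrassCurve ℤ), W.IsIntegralModelOf P.freyCurve →
    ∀ ℓ : ℕ, ℓ.Prime → ℓ ≠ P.p → W.IsGoodPrimeFor ℓ →
    ∀ A : ValuationSubring Qb, A.LiesOverPrime ℓ → ∀ τ : GQ, A.IsFrobeniusAt τ ℓ →
      galoisTrace (S := ℚ) (K := Qb) P.freyCurve P.p τ = ((W.apOfModel ℓ : ℤ) : ZMod P.p)

/-- The Frey curve is an elliptic curve. -/
theorem freyCurve_isElliptic_h52 (P : FreyPackage) : P.freyCurve.IsElliptic :=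
  ⟨isUnit_iff_ne_zero.mpr (Fermat.Agent.S13.H891.freyCurve_Δ_ne_zero P)⟩

/-- **TF, Frey form**, from the Frobenius relation at all primes and `Spec.DetFrobStatement`. -/
theorem traceFormulaFrey_of_h52 (hF : FrobRelAll)
    (hD : Fermat.Agent.Ribet.Spec.DetFrobStatement) : TraceFormulaFreyStatement := by
  intro P W hW ℓ hℓ hℓp hgood A hA τ hτ
  have := freyCurve_isElliptic_h52 P
  exact trace_of_det_h52 P.freyCurve hF W hW P.p ℓ P.pp hℓ hℓp hgood A hA τ hτ
    (hD P ℓ hℓ hℓp A hA τ hτ)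

/-- TF, Frey form, at the primes `ℓ ≥ 5`, from `Lib.Frob.FrobRelation` (on main) and
`Spec.DetFrobStatement`. -/
theorem traceFormulaFrey_of_five_le_h52 (hF : Fermat.Agent.Lib.Frob.FrobRelation)
    (hD : Fermat.Agent.Ribet.Spec.DetFrobStatement)
    (P : FreyPackage) (W : WeierstrassCurve ℤ) (hW : W.IsIntegralModelOf P.freyCurve)
    (ℓ : ℕ) (hℓ : ℓ.Prime) (h5 : 5 ≤ ℓ) (hℓp : ℓ ≠ P.p) (hgood : W.IsGoodPrimeFor ℓ)
    (A : ValuationSubring Qb) (hA : A.LiesOverPrime ℓ) (τ : GQ) (hτ : A.IsFrobeniusAt τ ℓ) :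
    galoisTrace (S := ℚ) (K := Qb) P.freyCurve P.p τ = ((W.apOfModel ℓ : ℤ) : ZMod P.p) := by
  have := freyCurve_isElliptic_h52 P
  exact trace_of_det_of_five_le_h52 P.freyCurve hF W hW P.p ℓ P.pp hℓ h5 hℓp hgood A hA τ hτ
    (hD P ℓ hℓ hℓp A hA τ hτ)

end Fermat.Agent.Ribet.H52
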