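import Fermat.Agent.S05.SameRed
import Fermat.Agent.Lib.Red.H382.Ker

/-!
# Row RIBET, wall at `p`, piece ELOC: the symmetric difference formula  (helper52)

`W` a Weierstrass curve over a field `K` with a valuation `v`.
* `xC_h52`, `etaC_h52` : the `x`-coordinate and `η = 2y + a₁x + a₃` of a point (`0` at infinity);
* `xC_add_sub_xC_sub_h52` : `x(Q + S) - x(Q - S) = - η_Q η_S / (x_Q - x_S)²`;
* `val_xC_add_sub_h52` : for `Q` integral and `S ≠ 0` in the kernel of reduction,
  `v (x(Q + S) - x(Q - S)) = v η_Q * v η_S / v x_S ^ 2`.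
-/

set_option autoImplicit false
set_option linter.unusedSectionVars false

namespace Fermat.Agent.Ribet.H52

open WeierstrassCurve WeierstrassCurve.Affine WeierstrassCurve.Affine.Point
open Fermat.Agent.S05.SameRed

variable {K : Type*} [Field K] [DecidableEq K]
  {Γ₀ : Type*} [LinearOrderedCommGroupWithZero Γ₀]
  {W : Affine K} {v : Valuation K Γ₀}

/-- The `x`-coordinate of a point (`0` at infinity). -/
def xC_h52 : W.Point → K
  | .zero => 0
  | .some x _ _ => x

/-- `η = 2 y + a₁ x + a₃` at a point (`0` at infinity). -/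
def etaC_h52 : W.Point → K
  | .zero => 0
  | .some x y _ => 2 * y + W.a₁ * x + W.a₃

@[simp] lemma xC_some_h52 {x y : K} (h : W.Nonsingular x y) : xC_h52 (Point.some x y h) = x := rfl

@[simp] lemma etaC_some_h52 {x y : K} (h : W.Nonsingular x y) :
    etaC_h52 (Point.some x y h) = 2 * y + W.a₁ * x + W.a₃ := rfl

/-- `η_P = 0` iff `P` is killed by `2`. -/
theorem etaC_eq_zero_iff_h52 (P : W.Point) : etaC_h52 P = 0 ↔ P + P = 0 := by
  rcases P with _ | ⟨x, y, h⟩
  · exact ⟨fun _ => rfl, fun _ => rfl⟩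
  · rw [etaC_some_h52]
    constructor
    · intro h0
      apply Point.add_of_Y_eq rfl
      simp only [Affine.negY]
      linear_combination h0
    · intro h0
      by_contra hne
      have hy : y ≠ W.negY x y := by
        intro hy
        apply hne
        simp only [Affine.negY] at hy
        linear_combination hy
      rw [Point.add_of_Y_ne hy] at h0
      exact Point.some_ne_zero _ h0

/-- **The symmetric difference formula.** -/
theorem xC_add_sub_xC_sub_h52 {x₁ y₁ x₂ y₂ : K} (h₁ : W.Nonsingular x₁ y₁)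
    (h₂ : W.Nonsingular x₂ y₂) (hx : x₁ ≠ x₂) :
    xC_h52 (Point.some x₁ y₁ h₁ + Point.some x₂ y₂ h₂) -
        xC_h52 (Point.some x₁ y₁ h₁ - Point.some x₂ y₂ h₂) =
      -((2 * y₁ + W.a₁ * x₁ + W.a₃) * (2 * y₂ + W.a₁ * x₂ + W.a₃)) / (x₁ - x₂) ^ 2 := by
  have hd : x₁ - x₂ ≠ 0 := sub_ne_zero.mpr hx
  rw [sub_eq_add_neg (Point.some x₁ y₁ h₁), Point.neg_some, Point.add_of_X_ne hx,
    Point.add_of_X_ne hx, xC_some_h52, xC_some_h52, Affine.slope_of_X_ne hx,
    Affine.slope_of_X_ne hx]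
  simp only [Affine.addX, Affine.negY]
  field_simp
  ring

/-- Valuation form: `Q` integral, `S ≠ 0` in the kernel of reduction. -/
theorem val_xC_add_sub_h52 {Q S : W.Point} (hQ : ¬ InKer W v Q) (hS : InKer W v S)
    (hS0 : S ≠ 0) :
    v (xC_h52 (Q + S) - xC_h52 (Q - S)) =
      v (etaC_h52 Q) * v (etaC_h52 S) / v (xC_h52 S) ^ 2 := by
  rcases Q with _ | ⟨x₁, y₁, h₁⟩
  · exact absurd trivial hQ
  rcases S with _ | ⟨x₂, y₂, h₂⟩
  · exact absurd rfl hS0
  have hx₁ : v x₁ ≤ 1 := not_lt.mp hQ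
  have hx₂ : 1 < v x₂ := hS
  have hx : x₁ ≠ x₂ := by
    rintro rfl
    exact absurd hx₂ (not_lt.mpr hx₁)
  have hv : v (x₁ - x₂) = v x₂ := by
    rw [sub_eq_add_neg, add_comm]
    rw [Valuation.map_add_eq_of_lt_left v (by rw [Valuation.map_neg]; exact hx₁.trans_lt hx₂),
      Valuation.map_neg]
  rw [xC_add_sub_xC_sub_h52 h₁ h₂ hx, map_div₀, Valuation.map_neg, map_mul, map_pow, hv]
  rfl

end Fermat.Agent.Ribet.H52
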