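import Mathlib

/-!
# Row RIBET, wall at `p`, piece ELOC: two facts of linear algebra in dimension two  (helper52)

* `exists_smul_eq_of_mem_line_h52` : a proper nonzero subspace of a plane is the line spanned by
  any of its nonzero vectors;
* `det_eq_of_triangular_h52` : `f t = a • t`, `f x = x + m • t` with `x ∉ ⟨t⟩` gives `det f = a`.
-/

set_option autoImplicit false

namespace Fermat.Agent.Ribet.H52

variable {k : Type*} [Field k] {V : Type*} [AddCommGroup V] [Module k V]

theorem linearIndependent_pair_h52 {t x : V} (ht : t ≠ 0) (hx : ∀ c : k, x ≠ c • t) :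
    LinearIndependent k ![t, x] := by
  rw [LinearIndependent.pair_iff]
  intro s r h
  have hr : r = 0 := by
    by_contra hr
    apply hx (-(r⁻¹ * s))
    have h1 : r • x = -(s • t) := by
      rw [eq_neg_iff_add_eq_zero, add_comm]
      exact h
    calc x = r⁻¹ • (r • x) := by rw [smul_smul, inv_mul_cancel₀ hr, one_smul]
      _ = -(r⁻¹ * s) • t := by rw [h1, smul_neg, smul_smul, neg_smul]
  refine ⟨?_, hr⟩
  rw [hr, zero_smul, add_zero] at h
  rcases smul_eq_zero.mp h with h | h
  · exact h
  · exact absurd h ht

/-- A proper subspace of a plane containing `t ≠ 0` is the line `k t`. -/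
theorem exists_smul_eq_of_mem_line_h52 (h2 : Module.finrank k V = 2) (N : Submodule k V)
    (hN : N ≠ ⊤) {t : V} (ht : t ∈ N) (ht0 : t ≠ 0) {y : V} (hy : y ∈ N) :
    ∃ c : k, y = c • t := by
  by_contra hcon
  push Not at hcon
  apply hN
  have hli : LinearIndependent k ![t, y] := linearIndependent_pair_h52 ht0 hcon
  have : Module.Finite k V := Module.finite_of_finrank_pos (by rw [h2]; norm_num)
  have hspan : Submodule.span k (Set.range ![t, y]) = ⊤ := by
    apply hli.span_eq_top_of_card_eq_finrank'
    rw [h2, Fintype.card_fin]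
  rw [eq_top_iff, ← hspan, Submodule.span_le]
  rintro _ ⟨i, rfl⟩
  fin_cases i
  · exact ht
  · exact hy

/-- The determinant of a triangular endomorphism of a plane. -/
theorem det_eq_of_triangular_h52 (h2 : Module.finrank k V = 2) (f : V →ₗ[k] V) {t x : V}
    (ht0 : t ≠ 0) (hx : ∀ c : k, x ≠ c • t) {a m : k} (hft : f t = a • t)
    (hfx : f x = x + m • t) : LinearMap.det f = a := by
  have hli : LinearIndependent k ![t, x] := linearIndependent_pair_h52 ht0 hx
  have : Module.Finite k V := Module.finite_of_finrank_pos (by rw [h2]; norm_num)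
  let b : Module.Basis (Fin 2) k V :=
    basisOfLinearIndependentOfCardEqFinrank hli (by rw [h2, Fintype.card_fin])
  have hb : ⇑b = ![t, x] := coe_basisOfLinearIndependentOfCardEqFinrank hli _
  have hb0 : b 0 = t := by rw [hb]; rfl
  have hb1 : b 1 = x := by rw [hb]; rfl
  rw [← LinearMap.det_toMatrix b, Matrix.det_fin_two]
  simp only [LinearMap.toMatrix_apply, hb0, hb1, hft, hfx, map_add, map_smul]
  rw [← hb0, ← hb1]
  simp [Module.Basis.repr_self]

end Fermat.Agent.Ribet.H52
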