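import Fermat.Agent.Ribet.H52.Kummer
import Fermat.Agent.Ribet.H52.ElocAlg
import Fermat.Agent.Ribet.H52.ElocLin
import Fermat.Agent.Ribet.H944.WallSpec
import Fermat.Agent.Ribet.H403.DetFrey
import Fermat.Agent.A2.H708.Tame

/-!
# Row RIBET, wall at `p`, piece ELOC: the local structure of `E[p]` at `p`, core  (helper52)

`E` a Weierstrass curve over `ℚ` with `Δ ≠ 0`, `p` an odd prime, `A` a valuation subring of `ℚ̄`
over `p` at which the coefficients of `E` are integral, `E₁ = InKer` the kernel of reduction.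

`elocOrdAt_core_h52`: assume
* (det) `det (σ | E[p]) = χ(σ)` for `σ` in the inertia group `I` of `A`;
* (b)   `σ x - x ∈ E₁` for `σ ∈ I` and `x ∈ E[p] ∖ E₁`;
* (η)   for `x ∈ E[p] ∖ E₁`, `η(x) = 2y + a₁x + a₃` has the valuation of a nonzero rational number;
* (ord) `E[p] ⊄ E₁`.
Then `H944.Wall.ELOCOrdAt E p A`: there is a line `⟨t⟩ = E[p] ∩ E₁` on which `I` acts by `χ`, `I`
acts trivially on `E[p] / ⟨t⟩`, and the peu ramifiée subgroup of `I` acts trivially on `E[p]`.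

The last part uses the resolvent criterion `kummer_criterion_h52` and the symmetric difference
formula `val_xC_add_sub_h52`; no formal groups, no division polynomials.
-/

set_option autoImplicit false
set_option linter.unusedSectionVars false
set_option linter.unusedVariables false
set_option linter.style.haveILetI false

open WeierstrassCurve WeierstrassCurve.Affine WeierstrassCurve.Affine.Point

namespace Fermat.Agent.Ribet.H52

open Fermat.Agent.S05.SameRed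
open Fermat.Agent.Ribet.H944.Wall (CycloAt ETorsion PeuFixes ELOCOrdAt)
open Fermat.Agent.Ribet.H403 (Qb GQ)

section basic

variable {E : WeierstrassCurve ℚ} {p : ℕ} {A : ValuationSubring Qb}

theorem xC_smul_h52 (σ : GQ) (P : (E⁄Qb).Point) : xC_h52 (σ • P) = σ (xC_h52 P) := by
  rcases P with _ | ⟨x, y, h⟩
  · exact (map_zero σ).symm
  · rfl

theorem etaC_smul_h52 (σ : GQ) (P : (E⁄Qb).Point) : etaC_h52 (σ • P) = σ (etaC_h52 P) := by
  rcases P with _ | ⟨x, y, h⟩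
  · exact (map_zero σ).symm
  · have h1 : σ ((E⁄Qb).a₁) = (E⁄Qb).a₁ := by
      show σ (algebraMap ℚ Qb E.a₁) = algebraMap ℚ Qb E.a₁
      exact σ.commutes _
    have h3 : σ ((E⁄Qb).a₃) = (E⁄Qb).a₃ := by
      show σ (algebraMap ℚ Qb E.a₃) = algebraMap ℚ Qb E.a₃
      exact σ.commutes _
    show 2 * σ y + (E⁄Qb).a₁ * σ x + (E⁄Qb).a₃ = σ (2 * y + (E⁄Qb).a₁ * x + (E⁄Qb).a₃)
    rw [map_add, map_add, map_mul, map_mul, h1, h3, map_ofNat]

/-- The decomposition group preserves the kernel of reduction. -/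
theorem inKer_smul_h52 {σ : GQ} (hσ : σ ∈ A.decompositionSubgroup ℚ) {P : (E⁄Qb).Point}
    (hP : InKer (E⁄Qb) A.valuation P) : InKer (E⁄Qb) A.valuation (σ • P) := by
  rcases P with _ | ⟨x, y, h⟩
  · exact trivial
  · have : Algebra.IsAlgebraic ℚ Qb := AlgebraicClosure.isAlgebraic ℚ
    show 1 < A.valuation (σ x)
    rw [Fermat.Agent.A2.H708.valuation_apply_of_mem_decomposition A hσ]
    exact hP

theorem coe_smul_h52 (σ : GQ) (x : ETorsion E p) :
    ((σ • x : ETorsion E p) : (E⁄Qb).Point) = σ • (x : (E⁄Qb).Point) := rfl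

/-- `E[p] ∩ E₁` as a `ZMod p`-submodule of `E[p]`. -/
noncomputable def kerTors_h52 (E : WeierstrassCurve ℚ) (p : ℕ) (A : ValuationSubring Qb)
    (hW : IntegralCoeffs (E⁄Qb) A.valuation) : Submodule (ZMod p) (ETorsion E p) :=
  AddSubgroup.toZModSubmodule p
    { carrier := {x | InKer (E⁄Qb) A.valuation (x : (E⁄Qb).Point)}
      zero_mem' := (trivial : InKer (E⁄Qb) A.valuation (0 : (E⁄Qb).Point))
      add_mem' := fun {a b} ha hb =>
        (Fermat.Agent.Lib.Red.H382.inKer_add hW ha hb :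
          InKer (E⁄Qb) A.valuation ((a : (E⁄Qb).Point) + (b : (E⁄Qb).Point)))
      neg_mem' := fun {a} ha =>
        (Fermat.Agent.Lib.Red.H382.inKer_neg ha :
          InKer (E⁄Qb) A.valuation (-(a : (E⁄Qb).Point))) }

theorem mem_kerTors_h52 (hW : IntegralCoeffs (E⁄Qb) A.valuation) (x : ETorsion E p) :
    x ∈ kerTors_h52 E p A hW ↔ InKer (E⁄Qb) A.valuation (x : (E⁄Qb).Point) := Iff.rfl

/-- An element of the peu ramifiée subgroup fixes the `p`-th roots of unity. -/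
theorem cycloAt_one_of_peuFixes_h52 (hp : p ≠ 0) {σ : GQ} (hσ : PeuFixes A p σ) :
    CycloAt p σ 1 := by
  intro ζ hζ
  rw [pow_one]
  have hv : A.valuation ζ = 1 := by
    have h1 : A.valuation ζ ^ p = 1 ^ p := by rw [← map_pow, hζ, map_one, one_pow]
    exact Fermat.Agent.S05.Assemble.pow_eq_pow_imp_eq hp h1
  refine hσ.2 ζ ((A.valuation_le_one_iff ζ).mp hv.le) ?_ ?_
  · apply (A.valuation_le_one_iff _).mp
    rw [map_inv₀, hv, inv_one]
  · intro τ _ _
    rw [hζ, map_one]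

end basic

section peu

variable {E : WeierstrassCurve ℚ} {p : ℕ} {A : ValuationSubring Qb}

/-- The ring endomorphisms of `ℚ̄` given by the inertia elements fixing `μ_p`. -/
def inertiaOne_h52 (A : ValuationSubring Qb) (p : ℕ) : Set (Qb →+* Qb) :=
  {f | ∃ τ : GQ, τ ∈ A.inertiaSubgroupIn ℚ ∧ CycloAt p τ 1 ∧ f = (τ : Qb →+* Qb)}

theorem two_ne_zero_zmod_h52 (hp : p.Prime) (hp2 : p ≠ 2) : (2 : ZMod p) ≠ 0 := by
  intro h
  have h' : ((2 : ℕ) : ZMod p) = 0 := by exact_mod_cast h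
  rw [ZMod.natCast_eq_zero_iff] at h'
  have := Nat.le_of_dvd (by norm_num) h'
  have := hp.two_le
  omega

/-- **PEU.**  The peu ramifiée subgroup acts trivially on `E[p]`, given the line `⟨t⟩ = E[p] ∩ E₁`
fixed by `I₁`, the triviality of `I` on `E[p] / ⟨t⟩` and the rationality of the valuations of
`η` on `E[p] ∖ E₁`. -/
theorem peu_fixes_h52 (hp : p.Prime) (hp2 : p ≠ 2)
    (hW : IntegralCoeffs (E⁄Qb) A.valuation)
    {t : ETorsion E p} (ht0 : t ≠ 0) (htK : t ∈ kerTors_h52 E p A hW)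
    (hline : ∀ y ∈ kerTors_h52 E p A hW, ∃ c : ZMod p, y = c • t)
    (ht1 : ∀ τ ∈ A.inertiaSubgroupIn ℚ, CycloAt p τ 1 → τ • t = t)
    (hb : ∀ τ ∈ A.inertiaSubgroupIn ℚ, ∀ x : ETorsion E p, τ • x - x ∈ kerTors_h52 E p A hW)
    (hη : ∀ x : ETorsion E p, x ∉ kerTors_h52 E p A hW →
      ∃ c : ℚ, c ≠ 0 ∧
        A.valuation (etaC_h52 (x : (E⁄Qb).Point)) = A.valuation (algebraMap ℚ Qb c))
    (x : ETorsion E p) (σ : GQ) (hσ : PeuFixes A p σ) : σ • x = x := by
  classical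
  haveI : Fact p.Prime := ⟨hp⟩
  haveI : NeZero p := ⟨hp.ne_zero⟩
  set N := kerTors_h52 E p A hW with hN
  have hσI : σ ∈ A.inertiaSubgroupIn ℚ := hσ.1
  have hσ1 : CycloAt p σ 1 := cycloAt_one_of_peuFixes_h52 hp.ne_zero hσ
  by_cases hx : x ∈ N
  · obtain ⟨c, rfl⟩ := hline x hx
    rw [smul_comm, ht1 σ hσI hσ1]
  by_contra hne
  -- the action of `I` on `x`
  have hact : ∀ τ ∈ A.inertiaSubgroupIn ℚ, ∃ c : ZMod p, τ • x = x + c • t := by
    intro τ hτ
    obtain ⟨c, hc⟩ := hline _ (hb τ hτ x)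
    exact ⟨c, by rw [← hc]; abel⟩
  obtain ⟨c₀, hc₀⟩ := hact σ hσI
  have hc₀0 : c₀ ≠ 0 := by
    rintro rfl
    apply hne
    rw [hc₀, zero_smul, add_zero]
  -- the family `g`
  set g : ZMod p → Qb := fun k => xC_h52 ((x + k • t : ETorsion E p) : (E⁄Qb).Point) with hg
  have hτg : ∀ τ ∈ A.inertiaSubgroupIn ℚ, CycloAt p τ 1 →
      ∃ c : ZMod p, τ • x = x + c • t ∧ ∀ k, τ (g k) = g (k + c) := by
    intro τ hτ hτ1
    obtain ⟨c, hc⟩ := hact τ hτ
    refine ⟨c, hc, fun k => ?_⟩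
    simp only [hg]
    rw [← xC_smul_h52, ← coe_smul_h52, smul_add, smul_comm τ k t, ht1 τ hτ hτ1, hc, add_smul]
    congr 2
    abel
  set H : Set (Qb →+* Qb) := inertiaOne_h52 A p with hH
  set n : (Qb →+* Qb) → ZMod p := fun f =>
    if h : ∃ c : ZMod p, ∀ k, f (g k) = g (k + c) then h.choose else 0 with hn
  have hgH : ∀ f ∈ H, ∀ k, f (g k) = g (k + n f) := by
    rintro f ⟨τ, hτ, hτ1, rfl⟩ k
    have hex : ∃ c : ZMod p, ∀ k, (τ : Qb →+* Qb) (g k) = g (k + c) := by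
      obtain ⟨c, -, hc⟩ := hτg τ hτ hτ1
      exact ⟨c, hc⟩
    simp only [hn, dif_pos hex]
    exact hex.choose_spec k
  obtain ⟨ζ, hζ⟩ := HasEnoughRootsOfUnity.exists_primitiveRoot Qb p
  have hζH : ∀ f ∈ H, f ζ = ζ := by
    rintro f ⟨τ, -, hτ1, rfl⟩
    have := hτ1 ζ hζ.pow_eq_one
    rwa [pow_one] at this
  have hσH : (σ : Qb →+* Qb) ∈ H := ⟨σ, hσI, hσ1, rfl⟩
  -- `g (n σ) = x (σ x) = x (x + c₀ t)`
  have hgσ : g (n (σ : Qb →+* Qb)) = g c₀ := by
    have h1 := hgH _ hσH 0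
    rw [zero_add] at h1
    rw [← h1]
    obtain ⟨c, hc, hcg⟩ := hτg σ hσI hσ1
    have h2 := hcg 0
    rw [zero_add] at h2
    have hcc : c = c₀ := by
      have h3 : c • t = c₀ • t := add_left_cancel (hc.symm.trans hc₀)
      by_contra hcc
      have h4 : (c - c₀) • t = 0 := by rw [sub_smul, h3, sub_self]
      rcases smul_eq_zero.mp h4 with h | h
      · exact hcc (sub_eq_zero.mp h)
      · exact ht0 h
    rw [← hcc]
    exact h2
  -- the points `Q = x + S`, `S = (c₀ / 2) t`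
  have h2 : (2 : ZMod p) ≠ 0 := two_ne_zero_zmod_h52 hp hp2
  set S : ETorsion E p := (c₀ / 2) • t with hS
  set Q : ETorsion E p := x + S with hQ
  have hSN : S ∈ N := N.smul_mem _ htK
  have hS0 : S ≠ 0 := smul_ne_zero (div_ne_zero hc₀0 h2) ht0
  have hQN : Q ∉ N := by
    intro h
    apply hx
    have := N.sub_mem h hSN
    rwa [hQ, add_sub_cancel_right] at this
  have hSS : S + S = c₀ • t := by
    rw [hS, ← add_smul]
    congr 1
    field_simp
    ring
  have hQS : Q + S = x + c₀ • t := by rw [hQ, add_assoc, hSS]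
  have hQS' : Q - S = x := by rw [hQ, add_sub_cancel_right]
  have key : g c₀ - g 0 =
      xC_h52 ((Q : (E⁄Qb).Point) + (S : (E⁄Qb).Point)) -
        xC_h52 ((Q : (E⁄Qb).Point) - (S : (E⁄Qb).Point)) := by
    simp only [hg]
    rw [zero_smul, add_zero, ← hQS, Submodule.coe_add]
    conv_lhs => rw [← hQS', Submodule.coe_sub]
  have hSpt0 : (S : (E⁄Qb).Point) ≠ 0 := fun h => hS0 (Subtype.ext h)
  have hval := val_xC_add_sub_h52 (v := A.valuation) (Q := (Q : (E⁄Qb).Point))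
    (S := (S : (E⁄Qb).Point)) hQN hSN hSpt0
  -- rationality of the three factors
  obtain ⟨c, hc0, hcv⟩ := hη Q hQN
  have hrQ : RatVal_h52 A.valuation H (etaC_h52 (Q : (E⁄Qb).Point)) :=
    ⟨algebraMap ℚ Qb c, (_root_.map_ne_zero _).mpr hc0, by
      rintro f ⟨τ, -, -, rfl⟩
      exact τ.commutes c, hcv⟩
  have hSfix : ∀ τ ∈ A.inertiaSubgroupIn ℚ, CycloAt p τ 1 →
      τ • (S : (E⁄Qb).Point) = (S : (E⁄Qb).Point) := by
    intro τ hτ hτ1
    rw [← coe_smul_h52, hS, smul_comm, ht1 τ hτ hτ1]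
  have hηS0 : etaC_h52 (S : (E⁄Qb).Point) ≠ 0 := by
    rw [Ne, etaC_eq_zero_iff_h52]
    intro h
    have h' : S + S = 0 := Subtype.ext (by rw [Submodule.coe_add, h]; rfl)
    rw [hSS] at h'
    rcases smul_eq_zero.mp h' with h'' | h''
    · exact hc₀0 h''
    · exact ht0 h''
  have hrS : RatVal_h52 A.valuation H (etaC_h52 (S : (E⁄Qb).Point)) := by
    refine ratVal_of_fixed_h52 hηS0 ?_
    rintro f ⟨τ, hτ, hτ1, rfl⟩
    show τ (etaC_h52 (S : (E⁄Qb).Point)) = _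
    rw [← etaC_smul_h52, hSfix τ hτ hτ1]
  have hxS0 : xC_h52 (S : (E⁄Qb).Point) ≠ 0 := by
    intro h
    have hin : InKer (E⁄Qb) A.valuation (S : (E⁄Qb).Point) := hSN
    rcases hSc : (S : (E⁄Qb).Point) with _ | ⟨xs, ys, hs⟩
    · exact hSpt0 hSc
    · rw [hSc] at hin h
      have h1 : (1 : A.ValueGroup) < A.valuation xs := hin
      rw [xC_some_h52] at h
      rw [h, _root_.map_zero] at h1
      exact not_lt_zero h1
  have hrX : RatVal_h52 A.valuation H (xC_h52 (S : (E⁄Qb).Point)) := by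
    refine ratVal_of_fixed_h52 hxS0 ?_
    rintro f ⟨τ, hτ, hτ1, rfl⟩
    show τ (xC_h52 (S : (E⁄Qb).Point)) = _
    rw [← xC_smul_h52, hSfix τ hτ hτ1]
  have hrat : RatVal_h52 A.valuation H (g (n (σ : Qb →+* Qb)) - g 0) := by
    refine ratVal_congr_h52 ?_ ((hrQ.mul hrS).div (hrX.pow 2))
    rw [hgσ, key, hval, map_div₀, map_mul, map_pow]
  have hne' : g (n (σ : Qb →+* Qb)) ≠ g 0 := fun h => hrat.ne_zero (sub_eq_zero.mpr h)
  obtain ⟨y, hy1, hyp, hyσ⟩ :=
    kummer_criterion_h52 A.valuation hp H hζ hζH g n hgH (σ : Qb →+* Qb) hσH hne' hrat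
  apply hyσ
  refine hσ.2 y ((A.valuation_le_one_iff y).mp hy1.le) ?_ ?_
  · apply (A.valuation_le_one_iff _).mp
    rw [map_inv₀, hy1, inv_one]
  · intro τ hτ hτ1
    exact hyp (τ : Qb →+* Qb) ⟨τ, hτ, hτ1, rfl⟩

end peu

section core

variable {E : WeierstrassCurve ℚ} {p : ℕ} {A : ValuationSubring Qb}

/-- **ELOC, core.**  The local structure of `E[p]` at `A` (line, trivial quotient, peu ramifiée)
from the determinant, the same-reduction property (b), the rationality of `v η` and the existence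
of an integral `p`-torsion point. -/
theorem elocOrdAt_core_h52 (hΔ : E.Δ ≠ 0) (hp : p.Prime) (hp2 : p ≠ 2) (hA : A.LiesOverPrime p)
    (hW : IntegralCoeffs (E⁄Qb) A.valuation)
    (hdet : ∀ σ ∈ A.inertiaSubgroupIn ℚ, ∀ c : ℕ, CycloAt p σ c →
      LinearMap.det (galoisRepModuleEnd (S := ℚ) (K := Qb) E p σ) = (c : ZMod p))
    (hb : ∀ σ ∈ A.inertiaSubgroupIn ℚ, ∀ x : ETorsion E p, x ∉ kerTors_h52 E p A hW →
      σ • x - x ∈ kerTors_h52 E p A hW)
    (hη : ∀ x : ETorsion E p, x ∉ kerTors_h52 E p A hW →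
      ∃ c : ℚ, c ≠ 0 ∧
        A.valuation (etaC_h52 (x : (E⁄Qb).Point)) = A.valuation (algebraMap ℚ Qb c))
    (hord : ∃ x : ETorsion E p, x ∉ kerTors_h52 E p A hW) :
    ELOCOrdAt E p A := by
  classical
  haveI : Fact p.Prime := ⟨hp⟩
  set N := kerTors_h52 E p A hW with hN
  have h2 : Module.finrank (ZMod p) (ETorsion E p) = 2 :=
    Fermat.Agent.Ribet.H403.finrank_tors E hΔ p
  -- `I` preserves `N` and acts trivially on `E[p] / N`
  have hstab : ∀ σ ∈ A.inertiaSubgroupIn ℚ, ∀ x ∈ N, σ • x ∈ N := fun σ hσ x hx =>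
    inKer_smul_h52 (Fermat.Agent.A2.H708.mem_decomposition_of_mem_inertiaIn A hσ) hx
  have hb' : ∀ σ ∈ A.inertiaSubgroupIn ℚ, ∀ x : ETorsion E p, σ • x - x ∈ N := by
    intro σ hσ x
    by_cases hx : x ∈ N
    · exact N.sub_mem (hstab σ hσ x hx) hx
    · exact hb σ hσ x hx
  obtain ⟨x₀, hx₀⟩ := hord
  have hNtop : N ≠ ⊤ := fun h => hx₀ (h ▸ Submodule.mem_top)
  -- `N ≠ ⊥` since the cyclotomic character is ramified at `p`
  have hNbot : N ≠ ⊥ := by
    intro hbot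
    obtain ⟨σ, hσ, hχ⟩ := Fermat.Agent.Ribet.H403.exists_inertia_cycloPow_ne_one p hp2 A hA
    apply hχ
    have htriv : ∀ x : ETorsion E p, σ • x = x := by
      intro x
      have := hb' σ hσ x
      rw [hbot, Submodule.mem_bot, sub_eq_zero] at this
      exact this
    have hd := hdet σ hσ _
      (fun ζ hζ => Fermat.Agent.Ribet.H403.apply_root_eq_pow_cycloPow p σ ζ hζ)
    have hid : galoisRepModuleEnd (S := ℚ) (K := Qb) E p σ = LinearMap.id := by
      apply LinearMap.ext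
      intro x
      rw [galoisRepModuleEnd_apply, htriv x, LinearMap.id_apply]
    rw [hid, LinearMap.det_id, ZMod.natCast_zmod_val] at hd
    exact Units.ext hd.symm
  obtain ⟨t, htN, ht0⟩ := (Submodule.ne_bot_iff N).mp hNbot
  have hline : ∀ y ∈ N, ∃ c : ZMod p, y = c • t := fun y hy =>
    exists_smul_eq_of_mem_line_h52 h2 N hNtop htN ht0 hy
  have hx₀t : ∀ c : ZMod p, x₀ ≠ c • t := fun c h => hx₀ (h ▸ N.smul_mem c htN)
  -- (a) `I` acts on `t` through `χ`
  have ha : ∀ σ ∈ A.inertiaSubgroupIn ℚ, ∀ c : ℕ, CycloAt p σ c → σ • t = c • t := by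
    intro σ hσ c hc
    obtain ⟨a, ha⟩ := hline _ (hstab σ hσ t htN)
    obtain ⟨m, hm⟩ := hline _ (hb' σ hσ x₀)
    have hfx : galoisRepModuleEnd (S := ℚ) (K := Qb) E p σ x₀ = x₀ + m • t := by
      rw [galoisRepModuleEnd_apply, ← hm]
      abel
    have hft : galoisRepModuleEnd (S := ℚ) (K := Qb) E p σ t = a • t := by
      rw [galoisRepModuleEnd_apply, ha]
    have hd := det_eq_of_triangular_h52 h2 _ ht0 hx₀t hft hfx
    rw [hdet σ hσ c hc] at hd
    rw [ha, ← hd, Nat.cast_smul_eq_nsmul]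
  refine ⟨t, ha, ?_, ?_⟩
  · intro x σ hσ
    obtain ⟨c, hc⟩ := hline _ (hb' σ hσ x)
    refine ⟨c.val, ?_⟩
    rw [← Nat.cast_smul_eq_nsmul (ZMod p), ZMod.natCast_zmod_val, ← hc]
    abel
  · intro x σ hσ
    exact peu_fixes_h52 hp hp2 hW ht0 htN hline
      (fun τ hτ hτ1 => by rw [ha τ hτ 1 hτ1, one_smul]) hb' hη x σ hσ

end core

end Fermat.Agent.Ribet.H52
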