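import Mathlib

/-!
# Row RIBET, wall at `p`: the resolvent criterion for "peu ramifiée"  (helper52)

Pure algebra, Mathlib only.  `F` a field with a valuation `v`, `H` a set of ring endomorphisms of
`F` (in the application: the elements of the inertia group at `A` fixing `ζ_p`, so that the
`H`-fixed elements are the elements of `K₁ = ℚ̄^I(ζ_p)`), `ζ` a primitive `p`-th root of unity fixed
by `H`.

Let `g : ZMod p → F` be a family permuted by `H` through translations:
`τ (g k) = g (k + n τ)` for `τ ∈ H`.  (Application: `g k = x (P + k • t)`, `τ P = P + n τ • t`.)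

**Criterion** (`kummer_criterion_h52`).  If `σ ∈ H` moves `g 0` and the valuation of
`g (n σ) - g 0 = σ (g 0) - g 0` is the valuation of an `H`-fixed element, then there is a unit `y`
(`v y = 1`) with `y ^ p` fixed by `H` and `σ y ≠ y`.

So an element of inertia which fixes all `p`-th roots of units of `K₁` ("peu ramifiée" subgroup)
cannot move `g 0`.  Proof: Lagrange resolvents `y_i = ∑ ζ^{-ik} g k`; `τ y_i = ζ^{i n τ} y_i`;
if no `y_i` (`i ≠ 0`) has an `H`-rational valuation, the `y_i` have pairwise distinct valuations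
modulo the `H`-rational ones, hence so does `p (g (n σ) - g 0) = ∑ (ζ^{i n σ} - 1) y_i`.
-/

set_option autoImplicit false

namespace Fermat.Agent.Ribet.H52

open Finset

section ultrametric

variable {F : Type*} [Field F] {Γ₀ : Type*} [LinearOrderedCommGroupWithZero Γ₀]

/-- A finite sum of elements whose nonzero terms have pairwise distinct valuations is zero (all
terms vanish) or has the valuation of one of its nonzero terms. -/
theorem val_sum_of_distinct_h52 (v : Valuation F Γ₀) {ι : Type*} [DecidableEq ι] (s : Finset ι)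
    (f : ι → F)
    (hdist : ∀ i ∈ s, ∀ j ∈ s, i ≠ j → f i ≠ 0 → f j ≠ 0 → v (f i) ≠ v (f j)) :
    (∀ i ∈ s, f i = 0) ∨ ∃ i ∈ s, f i ≠ 0 ∧ v (∑ j ∈ s, f j) = v (f i) := by
  induction s using Finset.induction_on with
  | empty => left; simp
  | insert a s ha ih =>
    have hdist' : ∀ i ∈ s, ∀ j ∈ s, i ≠ j → f i ≠ 0 → f j ≠ 0 → v (f i) ≠ v (f j) :=
      fun i hi j hj => hdist i (Finset.mem_insert_of_mem hi) j (Finset.mem_insert_of_mem hj)
    rw [Finset.sum_insert ha]
    by_cases hfa : f a = 0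
    · rcases ih hdist' with h0 | ⟨i, hi, hfi, hv⟩
      · left
        intro i hi
        rcases Finset.mem_insert.mp hi with rfl | hi
        · exact hfa
        · exact h0 i hi
      · right
        exact ⟨i, Finset.mem_insert_of_mem hi, hfi, by rw [hfa, zero_add, hv]⟩
    · right
      rcases ih hdist' with h0 | ⟨i, hi, hfi, hv⟩
      · refine ⟨a, Finset.mem_insert_self a s, hfa, ?_⟩
        rw [Finset.sum_eq_zero h0, add_zero]
      · have hai : a ≠ i := fun h => ha (h ▸ hi)
        have hne : v (f a) ≠ v (∑ j ∈ s, f j) := by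
          rw [hv]
          exact hdist a (Finset.mem_insert_self a s) i (Finset.mem_insert_of_mem hi) hai hfa hfi
        rw [Valuation.map_add_of_distinct_val v hne]
        rcases le_total (v (f a)) (v (∑ j ∈ s, f j)) with h | h
        · exact ⟨i, Finset.mem_insert_of_mem hi, hfi, by rw [max_eq_right h, hv]⟩
        · exact ⟨a, Finset.mem_insert_self a s, hfa, by rw [max_eq_left h]⟩

end ultrametric

section rational

variable {F : Type*} [Field F] {Γ₀ : Type*} [LinearOrderedCommGroupWithZero Γ₀]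

/-- `w` has the valuation of a nonzero `H`-fixed element. -/
def RatVal_h52 (v : Valuation F Γ₀) (H : Set (F →+* F)) (w : F) : Prop :=
  ∃ c : F, c ≠ 0 ∧ (∀ τ ∈ H, τ c = c) ∧ v w = v c

variable {v : Valuation F Γ₀} {H : Set (F →+* F)}

theorem ratVal_of_fixed_h52 {c : F} (hc0 : c ≠ 0) (hc : ∀ τ ∈ H, τ c = c) :
    RatVal_h52 v H c :=
  ⟨c, hc0, hc, rfl⟩

theorem RatVal_h52.ne_zero {w : F} (h : RatVal_h52 v H w) : w ≠ 0 := by
  obtain ⟨c, hc0, -, hv⟩ := h
  intro h0
  rw [h0, map_zero] at hv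
  exact hc0 ((map_eq_zero v).mp hv.symm)

theorem RatVal_h52.mul {w w' : F} (h : RatVal_h52 v H w) (h' : RatVal_h52 v H w') :
    RatVal_h52 v H (w * w') := by
  obtain ⟨c, hc0, hc, hv⟩ := h
  obtain ⟨c', hc0', hc', hv'⟩ := h'
  exact ⟨c * c', mul_ne_zero hc0 hc0', fun τ hτ => by rw [map_mul, hc τ hτ, hc' τ hτ],
    by rw [map_mul, map_mul, hv, hv']⟩

theorem RatVal_h52.inv {w : F} (h : RatVal_h52 v H w) : RatVal_h52 v H w⁻¹ := by
  obtain ⟨c, hc0, hc, hv⟩ := h
  exact ⟨c⁻¹, inv_ne_zero hc0, fun τ hτ => by rw [map_inv₀, hc τ hτ],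
    by rw [map_inv₀, map_inv₀, hv]⟩

theorem RatVal_h52.div {w w' : F} (h : RatVal_h52 v H w) (h' : RatVal_h52 v H w') :
    RatVal_h52 v H (w / w') := by
  rw [div_eq_mul_inv]
  exact h.mul h'.inv

theorem RatVal_h52.pow {w : F} (h : RatVal_h52 v H w) (n : ℕ) : RatVal_h52 v H (w ^ n) := by
  induction n with
  | zero =>
    rw [pow_zero]
    exact ratVal_of_fixed_h52 one_ne_zero (fun τ _ => map_one τ)
  | succ n ih =>
    rw [pow_succ]
    exact ih.mul h

theorem RatVal_h52.zpow {w : F} (h : RatVal_h52 v H w) (n : ℤ) : RatVal_h52 v H (w ^ n) := by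
  rcases Int.eq_nat_or_neg n with ⟨m, rfl | rfl⟩
  · rw [zpow_natCast]
    exact h.pow m
  · rw [zpow_neg, zpow_natCast]
    exact (h.pow m).inv

theorem ratVal_congr_h52 {w w' : F} (hv : v w = v w') (h : RatVal_h52 v H w') :
    RatVal_h52 v H w := by
  obtain ⟨c, hc0, hc, hv'⟩ := h
  exact ⟨c, hc0, hc, hv.trans hv'⟩

/-- If `w ^ a` and `w ^ b` have `H`-rational valuations with `a`, `b` coprime, so has `w`. -/
theorem ratVal_of_pow_coprime_h52 {w : F} (hw : w ≠ 0) {a b : ℕ} (hab : Nat.Coprime a b)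
    (ha : RatVal_h52 v H (w ^ a)) (hb : RatVal_h52 v H (w ^ b)) : RatVal_h52 v H w := by
  have hbez : (a : ℤ) * Nat.gcdA a b + (b : ℤ) * Nat.gcdB a b = 1 := by
    have := Nat.gcd_eq_gcd_ab a b
    rw [hab.gcd_eq_one] at this
    rw [← this]
    rfl
  have hw1 : w = (w ^ a) ^ (Nat.gcdA a b) * (w ^ b) ^ (Nat.gcdB a b) := by
    rw [← zpow_natCast w a, ← zpow_natCast w b, ← zpow_mul, ← zpow_mul, ← zpow_add₀ hw, hbez,
      zpow_one]
  rw [hw1]
  exact (ha.zpow _).mul (hb.zpow _)

end rational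

section criterion

variable {F : Type*} [Field F] {Γ₀ : Type*} [LinearOrderedCommGroupWithZero Γ₀]

/-- **The resolvent criterion.** -/
theorem kummer_criterion_h52 (v : Valuation F Γ₀) {p : ℕ} (hp : p.Prime) (H : Set (F →+* F))
    {ζ : F} (hζ : IsPrimitiveRoot ζ p) (hζH : ∀ τ ∈ H, τ ζ = ζ)
    (g : ZMod p → F) (n : (F →+* F) → ZMod p)
    (hg : ∀ τ ∈ H, ∀ k, τ (g k) = g (k + n τ))
    (σ : F →+* F) (hσ : σ ∈ H) (hne : g (n σ) ≠ g 0)
    (hval : RatVal_h52 v H (g (n σ) - g 0)) :
    ∃ y : F, v y = 1 ∧ (∀ τ ∈ H, τ (y ^ p) = y ^ p) ∧ σ y ≠ y := by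
  classical
  have : Fact p.Prime := ⟨hp⟩
  have : NeZero p := ⟨hp.ne_zero⟩
  have hζp : ζ ^ p = 1 := hζ.pow_eq_one
  have hpF : (p : F) ≠ 0 := (hζ.neZero' (R := F)).out
  -- the additive character `ψ a = ζ ^ a`
  set ψ : AddChar (ZMod p) F := AddChar.zmodChar p hζp with hψ
  have hψprim : ψ.IsPrimitive := AddChar.zmodChar_primitive_of_primitive_root p hζ
  have hψ1 : ∀ a : ZMod p, ψ a = 1 ↔ a = 0 :=
    fun a => AddChar.IsPrimitive.zmod_char_eq_one_iff p hψprim a
  have hψH : ∀ τ ∈ H, ∀ a : ZMod p, τ (ψ a) = ψ a := by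
    intro τ hτ a
    rw [hψ, AddChar.zmodChar_apply, map_pow, hζH τ hτ]
  have hψ0 : ∀ a : ZMod p, ψ a ≠ 0 := by
    intro a
    rw [hψ, AddChar.zmodChar_apply]
    exact pow_ne_zero _ (hζ.ne_zero hp.ne_zero)
  -- the resolvents
  set y : ZMod p → F := fun i => ∑ k : ZMod p, ψ (-(i * k)) * g k with hy
  have hτy : ∀ τ ∈ H, ∀ i, τ (y i) = ψ (i * n τ) * y i := by
    intro τ hτ i
    simp only [hy]
    rw [map_sum, Finset.mul_sum]
    rw [← Equiv.sum_comp (Equiv.addRight (n τ)) (fun k => ψ (i * n τ) * (ψ (-(i * k)) * g k))]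
    refine Finset.sum_congr rfl fun k _ => ?_
    rw [map_mul, hψH τ hτ, hg τ hτ, Equiv.coe_addRight, ← mul_assoc, ← AddChar.map_add_eq_mul]
    congr 2
    ring
  -- Fourier inversion
  have hinv : ∀ a : ZMod p, ∑ i : ZMod p, ψ (i * a) * y i = (p : F) * g a := by
    intro a
    simp only [hy, Finset.mul_sum]
    rw [Finset.sum_comm]
    have h1 : ∀ k : ZMod p, ∑ i : ZMod p, ψ (i * a) * (ψ (-(i * k)) * g k) =
        (if a = k then (p : F) else 0) * g k := by
      intro k
      have hs := AddChar.sum_mulShift (a - k) hψprim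
      have e : ∑ i : ZMod p, ψ (i * a) * (ψ (-(i * k)) * g k) =
          (∑ i : ZMod p, ψ (i * (a - k))) * g k := by
        rw [Finset.sum_mul]
        refine Finset.sum_congr rfl fun i _ => ?_
        rw [← mul_assoc, ← AddChar.map_add_eq_mul]
        congr 2
        ring
      rw [e, hs]
      by_cases hak : a = k
      · rw [if_pos hak, if_pos (sub_eq_zero.mpr hak), ZMod.card]
      · rw [if_neg hak, if_neg (sub_ne_zero.mpr hak), Nat.cast_zero]
    simp_rw [h1]
    rw [Finset.sum_eq_single a]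
    · rw [if_pos rfl]
    · intro k _ hk
      rw [if_neg (Ne.symm hk), zero_mul]
    · intro h
      exact absurd (Finset.mem_univ a) h
  have ha0 : n σ ≠ 0 := by
    intro h
    rw [h] at hne
    exact hne rfl
  -- the difference as a sum of resolvents
  have hdiff : ∑ i : ZMod p, (ψ (i * n σ) - 1) * y i = (p : F) * (g (n σ) - g 0) := by
    have h0 := hinv 0
    simp only [mul_zero, AddChar.map_zero_eq_one, one_mul] at h0
    simp only [sub_mul, one_mul, Finset.sum_sub_distrib]
    rw [hinv (n σ), h0, mul_sub]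
  by_cases hA : ∃ i : ZMod p, i ≠ 0 ∧ y i ≠ 0 ∧ RatVal_h52 v H (y i)
  · -- Case A: a resolvent with rational valuation gives the unit
    obtain ⟨i, hi0, hyi0, c, hc0, hc, hv⟩ := hA
    refine ⟨y i / c, ?_, ?_, ?_⟩
    · rw [map_div₀, hv, div_self ((Valuation.ne_zero_iff v).mpr hc0)]
    · intro τ hτ
      rw [map_pow, map_div₀, hτy τ hτ, hc τ hτ, mul_div_assoc, mul_pow,
        ← AddChar.map_nsmul_eq_pow, nsmul_eq_mul]
      have : ((p : ℕ) : ZMod p) * (i * n τ) = 0 := by
        rw [ZMod.natCast_self, zero_mul]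
      rw [this, AddChar.map_zero_eq_one, one_mul]
    · rw [map_div₀, hτy σ hσ, hc σ hσ, mul_div_assoc]
      intro h
      have h1 : ψ (i * n σ) = 1 := by
        have hyc : y i / c ≠ 0 := div_ne_zero hyi0 hc0
        exact mul_right_cancel₀ hyc (by rw [h, one_mul])
      rcases mul_eq_zero.mp ((hψ1 _).mp h1) with h2 | h2
      · exact hi0 h2
      · exact ha0 h2
  · -- Case B: impossible
    exfalso
    push Not at hA
    set u : ZMod p → F := fun i => (ψ (i * n σ) - 1) * y i with hu
    have hψne : ∀ i : ZMod p, i ≠ 0 → ψ (i * n σ) - 1 ≠ 0 := by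
      intro i hi h
      rcases mul_eq_zero.mp ((hψ1 _).mp (sub_eq_zero.mp h)) with h2 | h2
      · exact hi h2
      · exact ha0 h2
    have hψfix : ∀ i : ZMod p, ∀ τ ∈ H, τ (ψ (i * n σ) - 1) = ψ (i * n σ) - 1 := by
      intro i τ hτ
      rw [map_sub, map_one, hψH τ hτ]
    have hψrat : ∀ i : ZMod p, i ≠ 0 → RatVal_h52 v H (ψ (i * n σ) - 1) :=
      fun i hi => ratVal_of_fixed_h52 (hψne i hi) (hψfix i)
    have hu0 : u 0 = 0 := by
      simp only [hu, zero_mul, AddChar.map_zero_eq_one, sub_self]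
    have hui : ∀ i : ZMod p, u i ≠ 0 → i ≠ 0 ∧ y i ≠ 0 := by
      intro i hi
      refine ⟨?_, ?_⟩
      · rintro rfl
        exact hi hu0
      · intro h
        apply hi
        simp only [hu, h, mul_zero]
    -- `y i ^ p` is `H`-fixed
    have hypow : ∀ i : ZMod p, y i ≠ 0 → RatVal_h52 v H (y i ^ p) := by
      intro i hyi
      refine ratVal_of_fixed_h52 (pow_ne_zero _ hyi) fun τ hτ => ?_
      rw [map_pow, hτy τ hτ, mul_pow, ← AddChar.map_nsmul_eq_pow, nsmul_eq_mul]
      have : ((p : ℕ) : ZMod p) * (i * n τ) = 0 := by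
        rw [ZMod.natCast_self, zero_mul]
      rw [this, AddChar.map_zero_eq_one, one_mul]
    -- pairwise distinct valuations
    have hdist : ∀ i ∈ (Finset.univ : Finset (ZMod p)), ∀ j ∈ (Finset.univ : Finset (ZMod p)),
        i ≠ j → u i ≠ 0 → u j ≠ 0 → v (u i) ≠ v (u j) := by
      intro i _ j _ hij hui0 huj0 hveq
      obtain ⟨hi0, hyi0⟩ := hui i hui0
      obtain ⟨hj0, hyj0⟩ := hui j huj0
      -- `y i / y j` has rational valuation
      have h1 : RatVal_h52 v H (y i / y j) := by
        have hq : v (y i / y j) = v ((ψ (j * n σ) - 1) / (ψ (i * n σ) - 1)) := by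
          simp only [hu, map_mul] at hveq
          rw [map_div₀, map_div₀]
          have hvi : v (ψ (i * n σ) - 1) ≠ 0 := (Valuation.ne_zero_iff v).mpr (hψne i hi0)
          have hvj : v (y j) ≠ 0 := (Valuation.ne_zero_iff v).mpr hyj0
          rw [div_eq_div_iff hvj hvi, mul_comm (v (y i)), hveq, mul_comm]
        exact ratVal_congr_h52 hq ((hψrat j hj0).div (hψrat i hi0))
      -- `y i ^ m / y j` is `H`-fixed, `m = j / i`
      set m : ℕ := (j / i).val with hm
      have hmi : (m : ZMod p) * i = j := by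
        rw [hm, ZMod.natCast_zmod_val, div_mul_cancel₀ j hi0]
      have h2 : RatVal_h52 v H (y i ^ m / y j) := by
        refine ratVal_of_fixed_h52 (div_ne_zero (pow_ne_zero _ hyi0) hyj0) fun τ hτ => ?_
        rw [map_div₀, map_pow, hτy τ hτ, hτy τ hτ, mul_pow, ← AddChar.map_nsmul_eq_pow,
          nsmul_eq_mul, ← mul_assoc, hmi, mul_div_mul_left _ _ (hψ0 _)]
      -- hence `y i ^ (m - 1)` has rational valuation
      have hm2 : 2 ≤ m := by
        have hm0 : m ≠ 0 := by
          intro h0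
          rw [h0, Nat.cast_zero, zero_mul] at hmi
          exact hj0 hmi.symm
        have hm1 : m ≠ 1 := by
          intro h1'
          rw [h1', Nat.cast_one, one_mul] at hmi
          exact hij hmi
        omega
      have hmp : m < p := ZMod.val_lt _
      have h3 : RatVal_h52 v H (y i ^ (m - 1)) := by
        have e : y i ^ (m - 1) = (y i ^ m / y j) / (y i / y j) := by
          have : y i ^ m = y i ^ (m - 1) * y i := by
            rw [← pow_succ]
            congr 1
            omega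
          rw [this]
          field_simp
        rw [e]
        exact h2.div h1
      have hcop : Nat.Coprime (m - 1) p := by
        rw [Nat.coprime_comm, hp.coprime_iff_not_dvd]
        intro hdvd
        have := Nat.le_of_dvd (by omega) hdvd
        omega
      exact (hA i hi0 hyi0) (ratVal_of_pow_coprime_h52 hyi0 hcop h3 (hypow i hyi0))
    rcases val_sum_of_distinct_h52 v Finset.univ u hdist with h0 | ⟨i, -, hui0, hv⟩
    · -- all terms vanish: the sum is zero
      have hs : ∑ i : ZMod p, u i = 0 := Finset.sum_eq_zero h0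
      rw [hdiff] at hs
      rcases mul_eq_zero.mp hs with h | h
      · exact hpF h
      · exact hne (sub_eq_zero.mp h)
    · obtain ⟨hi0, hyi0⟩ := hui i hui0
      apply hA i hi0 hyi0
      -- `v (y i) = v (p * (g (n σ) - g 0) / (ψ (i * n σ) - 1))`
      have hpr : RatVal_h52 v H ((p : F) * (g (n σ) - g 0) / (ψ (i * n σ) - 1)) :=
        ((ratVal_of_fixed_h52 hpF (fun τ _ => map_natCast τ p)).mul hval).div (hψrat i hi0)
      refine ratVal_congr_h52 ?_ hpr
      rw [hdiff] at hv
      simp only [hu, map_mul] at hv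
      have hvi : v (ψ (i * n σ) - 1) ≠ 0 := (Valuation.ne_zero_iff v).mpr (hψne i hi0)
      rw [map_div₀, map_mul, hv, mul_div_assoc, mul_comm, div_mul_cancel₀ _ hvi]

end criterion

end Fermat.Agent.Ribet.H52
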