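import Fermat.Agent.Ribet.H52.TraceFormula
import Fermat.Agent.Ribet.Spec2
import Fermat.Agent.Lib.Frob.Small.All
import Fermat.Agent.Ribet.H343.DetFrob

/-!
# Row RIBET, piece TF (helper52): the trace formula for the Frey curve, UNCONDITIONAL

`traceFormulaFrey_h52 : Spec.TraceFormulaFreyStatement` — for every integral model `W` of the
Frey curve, every prime `ℓ ≠ p` of good reduction of `W` (INCLUDING `ℓ = 2, 3`) and every
Frobenius `τ` at a place over `ℓ`:  `tr (τ | E[p]) = a_ℓ(W)` in `𝔽_p`.

Inputs, all on main: the Frobenius relation at all good primes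
(`Lib.Frob.Small.frobRelationAll`, helper545), the determinant formula
(`Ribet.H343.detFrob`, helper343), `dim E[p] = 2` (`S41/H701`), `Lib/VC`.

Also `trace_of_det_uncond_h52`: the general form (any elliptic curve `E` over `ℚ`, any prime
`n`) with the determinant as a hypothesis, unconditional in the Frobenius relation.
-/

set_option autoImplicit false

open WeierstrassCurve WeierstrassCurve.Affine WeierstrassCurve.Affine.Point

namespace Fermat.Agent.Ribet.H52

open Fermat.Agent.Lib.Frob (Qb Pts)
open Fermat.Agent.Ribet.Spec (GQ)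

/-- The Frobenius relation at all good primes (landed by helper545). -/
theorem frobRelAll_h52 : FrobRelAll :=
  fun W ℓ hℓ hgood A σ hA hσ n hn hℓn P hP =>
    Fermat.Agent.Lib.Frob.Small.frobRelationAll W ℓ hℓ hgood A σ hA hσ n hn hℓn P hP

/-- **Trace from determinant, unconditional in the Frobenius relation.**  `E` an elliptic curve
over `ℚ`, `W` an integral model of `E`, `n ≠ ℓ` primes, `W` good at `ℓ`, `τ` a Frobenius at a
place over `ℓ`.  If `det (τ | E[n]) = ℓ` then `tr (τ | E[n]) = a_ℓ(W)`. -/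
theorem trace_of_det_uncond_h52 (E : WeierstrassCurve ℚ) [E.IsElliptic] (W : WeierstrassCurve ℤ)
    (hW : W.IsIntegralModelOf E) (n ℓ : ℕ) (hn : n.Prime) (hℓ : ℓ.Prime) (hℓn : ℓ ≠ n)
    (hgood : W.IsGoodPrimeFor ℓ) (A : ValuationSubring Qb) (hA : A.LiesOverPrime ℓ)
    (τ : GQ) (hτ : A.IsFrobeniusAt τ ℓ)
    (hdet : LinearMap.det (galoisRepModuleEnd (S := ℚ) (K := Qb) E n τ) = (ℓ : ZMod n)) :
    galoisTrace (S := ℚ) (K := Qb) E n τ = ((W.apOfModel ℓ : ℤ) : ZMod n) :=
  trace_of_det_h52 E frobRelAll_h52 W hW n ℓ hn hℓ hℓn hgood A hA τ hτ hdet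

/-- **(TF-Frey), unconditional.** -/
theorem traceFormulaFrey_h52 : Fermat.Agent.Ribet.Spec.TraceFormulaFreyStatement :=
  traceFormulaFrey_of_h52 frobRelAll_h52 Fermat.Agent.Ribet.H343.detFrob

/-- The general trace formula `Spec.TraceFormulaStatement` from the determinant formula for all
elliptic curves over `ℚ` alone. -/
theorem traceFormula_of_detAll_h52 (hD : DetFrobAllStatement) :
    Fermat.Agent.Ribet.Spec.TraceFormulaStatement :=
  traceFormula_of_det_h52 frobRelAll_h52 hD

end Fermat.Agent.Ribet.H52
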