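import Fermat.Agent.Ribet.H52.TraceFormula
import Fermat.Agent.Ribet.Spec3
import Fermat.Agent.Ribet.H403.DetCyc
import Fermat.Agent.Lib.Frob.Small.All

/-!
# Row RIBET, TARGET S40, piece TF-W (helper52): the trace formula in `W`-form, UNCONDITIONAL

`traceFormulaW_h52 : Spec.TraceFormulaWStatement` — `W` an integral Weierstrass curve with
`Δ ≠ 0`, `p` a prime with `W[p]` irreducible, `ℓ ≠ p` a prime of good reduction of `W`
(INCLUDING `ℓ = 2, 3`), `τ` a Frobenius at a place over `ℓ`:  `tr (τ | W[p]) = a_ℓ(W)` in `𝔽_p`.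

Inputs, all on main:
* the Frobenius relation at all good primes `Lib.Frob.Small.frobRelationAll` (helper545);
* `det = cyclotomic` without Weil pairing, `Ribet.H403.det_eq_of_apply_root` (helper403), which
  needs a non-scalar element in the image: `exists_nonscalar_of_irreducible_h52`;
* Frobenius on roots of unity `S55.H414.IsFrobeniusAt_apply_root` (helper414);
* `H52.trace_of_det_h52` (Cayley–Hamilton in rank two).

Also `detFrobW_h52` (the determinant of Frobenius is `ℓ`) and `charpolyFrobW_h52`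
(`τ² − a_ℓ τ + ℓ = 0` as endomorphisms of `W[p]`).
-/

set_option autoImplicit false

open WeierstrassCurve WeierstrassCurve.Affine WeierstrassCurve.Affine.Point

namespace Fermat.Agent.Ribet.H52

open Fermat.Agent.Lib.Frob (Qb Pts)
open Fermat.Agent.Ribet.Spec (GQ WTorsion)

/-- An irreducible `W[p]` is not acted on by scalars only. -/
theorem exists_nonscalar_of_irreducible_h52 (W : WeierstrassCurve ℤ) (hΔ : W.Δ ≠ 0) (p : ℕ)
    [Fact p.Prime] (hirr : W.ModRepIsIrreducible p) :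
    ∃ h : GQ, ¬ ∃ s : ZMod p, ∀ x : WTorsion W p, h • x = s • x := by
  by_contra hall
  have hall' : ∀ h : GQ, ∃ s : ZMod p, ∀ x : WTorsion W p, h • x = s • x := by
    intro h
    by_contra hh
    exact hall ⟨h, hh⟩
  obtain ⟨hnt, hirr'⟩ := hirr
  have hΔQ : (W.map (Int.castRingHom ℚ)).Δ ≠ 0 := by
    rw [WeierstrassCurve.map_Δ]
    simpa using hΔ
  have : (W.map (Int.castRingHom ℚ)).IsElliptic := ⟨isUnit_iff_ne_zero.mpr hΔQ⟩
  have hrank : Module.finrank (ZMod p) (WTorsion W p) = 2 :=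
    finrank_torsion_h52 (W.map (Int.castRingHom ℚ)) p
  obtain ⟨x, hx⟩ := exists_ne (0 : WTorsion W p)
  have hstable : IsGaloisStable (K := AlgebraicClosure ℚ) ℚ
      (Submodule.span (ZMod p) ({x} : Set (WTorsion W p))) := by
    intro σ y hy
    obtain ⟨s, hs⟩ := hall' σ
    rw [hs y]
    exact Submodule.smul_mem _ _ hy
  rcases hirr' _ hstable with hbot | htop
  · apply hx
    have hmem : x ∈ Submodule.span (ZMod p) ({x} : Set (WTorsion W p)) :=
      Submodule.mem_span_singleton_self x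
    rw [hbot] at hmem
    exact (Submodule.mem_bot _).mp hmem
  · have h1 : Module.finrank (ZMod p) (Submodule.span (ZMod p) ({x} : Set (WTorsion W p))) = 1 :=
      finrank_span_singleton hx
    rw [htop, finrank_top, hrank] at h1
    omega

/-- **(DET-W)** the determinant of a Frobenius at `ℓ ≠ p` on an irreducible `W[p]` is `ℓ`. -/
theorem detFrobW_h52 (W : WeierstrassCurve ℤ) (p : ℕ) (hΔ : W.Δ ≠ 0) (hp : p.Prime)
    (hirr : W.ModRepIsIrreducible p) (ℓ : ℕ) (hℓ : ℓ.Prime) (hℓp : ℓ ≠ p)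
    (A : ValuationSubring (AlgebraicClosure ℚ)) (hA : A.LiesOverPrime ℓ) (τ : GQ)
    (hτ : A.IsFrobeniusAt τ ℓ) :
    LinearMap.det (galoisRepModuleEnd (S := ℚ) (K := AlgebraicClosure ℚ)
      (W.map (Int.castRingHom ℚ)) p τ) = (ℓ : ZMod p) := by
  have : Fact p.Prime := ⟨hp⟩
  refine Fermat.Agent.Ribet.H403.det_eq_of_apply_root W p hΔ
    (exists_nonscalar_of_irreducible_h52 W hΔ p hirr) τ ℓ ?_
  intro ζ hζ
  exact Fermat.Agent.S55.H414.IsFrobeniusAt_apply_root hτ hp.ne_zero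
    (Fermat.Agent.S55.Bridge.val_prime_eq_one (A := A) hA hℓ hp hℓp) hζ

/-- **(TF-W), unconditional.** -/
theorem traceFormulaW_h52 : Fermat.Agent.Ribet.Spec.TraceFormulaWStatement := by
  intro W p hΔ hp _ hirr ℓ hℓ hℓp hgood A hA τ hτ
  have hΔQ : (W.map (Int.castRingHom ℚ)).Δ ≠ 0 := by
    rw [WeierstrassCurve.map_Δ]
    simpa using hΔ
  have : (W.map (Int.castRingHom ℚ)).IsElliptic := ⟨isUnit_iff_ne_zero.mpr hΔQ⟩
  exact trace_of_det_h52 (W.map (Int.castRingHom ℚ))
    (fun W ℓ hℓ hgood A σ hA hσ n hn hℓn P hP =>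
      Fermat.Agent.Lib.Frob.Small.frobRelationAll W ℓ hℓ hgood A σ hA hσ n hn hℓn P hP)
    W ⟨1, one_smul _ _⟩ p ℓ hp hℓ hℓp hgood A hA τ hτ
    (detFrobW_h52 W p hΔ hp hirr ℓ hℓ hℓp A hA τ hτ)

end Fermat.Agent.Ribet.H52
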